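import Mathlib
import Fermat.Agent.S31.Cyclo

/-!
# C80 (S30), piece CYC-adic: the `p`-adic cyclotomic character with values in a `p`-adic ring

For a commutative ring `R` which is `p`-adically separated and complete in the elementary sense
`IsPAdic p R` (every sequence with `a (n+1) - a n ∈ (p^n)` has a limit; `⋂ (p^n) = 0`) we construct
`cyc hR : Gal(ℚ̄/ℚ) →* Rˣ`, the limit of the characters `chiM (p ^ n)` of `S31/Cyclo.lean`:

* `cyc_spec` : `cyc hR g ≡ (chiM (p^n) g).val` modulo `p^n`;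
* `cyc_frobenius` : `cyc hR σ = ℓ` for a Frobenius element at `ℓ ≠ p`;
* `cyc_inertia` : `cyc hR τ = 1` for `τ` in an inertia group at `ℓ ≠ p`;
* `cyc_conj₀` : `cyc hR conj₀ = -1`;
* `cyc_level` : modulo `p^n` the character `cyc hR` factors through a finite level.

A complete discrete valuation ring of characteristic zero whose maximal ideal contains `p`
satisfies `IsPAdic p` (`isPAdic_of_dvr`), and its ideals `(p^n)` are cofinal with the powers of the
maximal ideal (`span_pow_le_maximalIdeal_pow`, `exists_maximalIdeal_pow_le`).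
-/

set_option autoImplicit false
set_option linter.unusedSectionVars false
set_option linter.style.haveILetI false

noncomputable section

namespace Fermat.Agent.S30.CycAdic

open Fermat.Agent.S31.Cyc

local notation "Qb" => AlgebraicClosure ℚ
local notation "Gal" => (AlgebraicClosure ℚ ≃ₐ[ℚ] AlgebraicClosure ℚ)

/-- `R` is `p`-adically separated and complete (elementary form). -/
structure IsPAdic (p : ℕ) (R : Type) [CommRing R] : Prop where
  lim : ∀ a : ℕ → R, (∀ n, a (n + 1) - a n ∈ Ideal.span {(p : R) ^ n}) →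
    ∃ d : R, ∀ n, d - a n ∈ Ideal.span {(p : R) ^ n}
  sep : ∀ a : R, (∀ n, a ∈ Ideal.span {(p : R) ^ n}) → a = 0

section Lift

variable {R : Type} [CommRing R]

theorem span_pow_anti (x : R) {m n : ℕ} (h : m ≤ n) :
    Ideal.span {x ^ n} ≤ Ideal.span {x ^ m} := by
  rw [Ideal.span_singleton_le_span_singleton]
  exact pow_dvd_pow x h

/-- a sequence with `a (n+1) - a n ∈ (x^n)` satisfies `a n' - a n ∈ (x^n)` for `n ≤ n'` -/
theorem sub_mem_of_succ (x : R) (a : ℕ → R)
    (ha : ∀ n, a (n + 1) - a n ∈ Ideal.span {x ^ n}) {n n' : ℕ} (h : n ≤ n') :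
    a n' - a n ∈ Ideal.span {x ^ n} := by
  induction n', h using Nat.le_induction with
  | base => rw [sub_self]; exact zero_mem _
  | succ k hk ih =>
    have h1 : a (k + 1) - a n = (a (k + 1) - a k) + (a k - a n) := by ring
    rw [h1]
    exact add_mem (span_pow_anti x hk (ha k)) ih

/-- the natural lift of a residue class is well defined modulo `m` -/
theorem natCast_sub_val_mem (m : ℕ) [NeZero m] (k : ℕ) (z : ZMod m) (h : (k : ZMod m) = z) :
    (k : R) - ((z.val : ℕ) : R) ∈ Ideal.span {(m : R)} := by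
  have h1 : ((z.val : ℕ) : ZMod m) = (k : ZMod m) := by rw [ZMod.natCast_zmod_val, h]
  have h2 : z.val ≡ k [MOD m] := (ZMod.natCast_eq_natCast_iff _ _ _).1 h1
  obtain ⟨c, hc⟩ := Nat.modEq_iff_dvd.1 h2
  rw [Ideal.mem_span_singleton]
  refine ⟨(c : R), ?_⟩
  have := congrArg (Int.cast : ℤ → R) hc
  push_cast at this
  exact this

end Lift

section Char

variable (p : ℕ) [hp : Fact p.Prime] (R : Type) [CommRing R]

instance neZero_pow (n : ℕ) : NeZero (p ^ n) := ⟨pow_ne_zero n hp.out.ne_zero⟩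

/-- the `n`-th approximation of the `p`-adic cyclotomic character -/
def approx (n : ℕ) (g : Gal) : R :=
  ((((chiM (p ^ n) g : (ZMod (p ^ n))ˣ) : ZMod (p ^ n)).val : ℕ) : R)

variable {p R}

theorem natCast_sub_approx_mem (n : ℕ) (g : Gal) (k : ℕ)
    (h : (k : ZMod (p ^ n)) = ((chiM (p ^ n) g : (ZMod (p ^ n))ˣ) : ZMod (p ^ n))) :
    (k : R) - approx p R n g ∈ Ideal.span {(p : R) ^ n} := by
  have := natCast_sub_val_mem (R := R) (p ^ n) k _ h
  rwa [Nat.cast_pow] at this

theorem approx_compat {n n' : ℕ} (h : n ≤ n') (g : Gal) :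
    approx p R n' g - approx p R n g ∈ Ideal.span {(p : R) ^ n} := by
  apply natCast_sub_approx_mem
  have hd : p ^ n ∣ p ^ n' := pow_dvd_pow p h
  rw [← chiM_compat hd g, ZMod.unitsMap_def, Units.coe_map]
  show _ = ZMod.castHom hd (ZMod (p ^ n)) _
  rw [ZMod.castHom_apply, ZMod.natCast_val]

theorem approx_one (n : ℕ) : (1 : R) - approx p R n 1 ∈ Ideal.span {(p : R) ^ n} := by
  have := natCast_sub_approx_mem (R := R) (p := p) n 1 1 (by
    rw [map_one, Units.val_one, Nat.cast_one])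
  rwa [Nat.cast_one] at this

theorem approx_mul (n : ℕ) (g h : Gal) :
    approx p R n g * approx p R n h - approx p R n (g * h) ∈ Ideal.span {(p : R) ^ n} := by
  have := natCast_sub_approx_mem (R := R) (p := p) n (g * h)
    ((((chiM (p ^ n) g : (ZMod (p ^ n))ˣ) : ZMod (p ^ n)).val)
      * (((chiM (p ^ n) h : (ZMod (p ^ n))ˣ) : ZMod (p ^ n)).val)) (by
    rw [Nat.cast_mul, ZMod.natCast_zmod_val, ZMod.natCast_zmod_val, map_mul, Units.val_mul])
  rwa [Nat.cast_mul] at this

variable (hR : IsPAdic p R)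

include hR in
theorem exists_cycFun (g : Gal) :
    ∃ d : R, ∀ n, d - approx p R n g ∈ Ideal.span {(p : R) ^ n} :=
  hR.lim _ fun n => approx_compat (Nat.le_succ n) g

/-- the underlying function of the `p`-adic cyclotomic character -/
def cycFun (g : Gal) : R := (exists_cycFun hR g).choose

theorem cycFun_spec (n : ℕ) (g : Gal) :
    cycFun hR g - approx p R n g ∈ Ideal.span {(p : R) ^ n} :=
  (exists_cycFun hR g).choose_spec n

theorem cycFun_unique (g : Gal) (d : R)
    (hd : ∀ n, d - approx p R n g ∈ Ideal.span {(p : R) ^ n}) : cycFun hR g = d := by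
  rw [← sub_eq_zero]
  apply hR.sep
  intro n
  have h1 : cycFun hR g - d = (cycFun hR g - approx p R n g) - (d - approx p R n g) := by ring
  rw [h1]
  exact sub_mem (cycFun_spec hR n g) (hd n)

/-- the `p`-adic cyclotomic character as a monoid homomorphism to `R` -/
def cycHom : Gal →* R where
  toFun := cycFun hR
  map_one' := cycFun_unique hR 1 1 fun n => approx_one n
  map_mul' g h := cycFun_unique hR (g * h) _ fun n => by
    have h1 : cycFun hR g * cycFun hR h - approx p R n (g * h)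
        = (cycFun hR g - approx p R n g) * cycFun hR h
          + approx p R n g * (cycFun hR h - approx p R n h)
          + (approx p R n g * approx p R n h - approx p R n (g * h)) := by ring
    rw [h1]
    exact add_mem (add_mem (Ideal.mul_mem_right _ _ (cycFun_spec hR n g))
      (Ideal.mul_mem_left _ _ (cycFun_spec hR n h))) (approx_mul n g h)

/-- **the `p`-adic cyclotomic character** `Gal(ℚ̄/ℚ) →* Rˣ` -/
def cyc : Gal →* Rˣ := (cycHom hR).toHomUnits

theorem cyc_val (g : Gal) : ((cyc hR g : Rˣ) : R) = cycFun hR g := rfl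

/-- `cyc ≡ chiM (p^n)` modulo `p^n` -/
theorem cyc_spec (n : ℕ) (g : Gal) :
    ((cyc hR g : Rˣ) : R) - approx p R n g ∈ Ideal.span {(p : R) ^ n} :=
  cycFun_spec hR n g

/-- characterisation of the values of `cyc` -/
theorem cyc_unique (g : Gal) (d : R)
    (hd : ∀ n, d - approx p R n g ∈ Ideal.span {(p : R) ^ n}) : ((cyc hR g : Rˣ) : R) = d :=
  cycFun_unique hR g d hd

/-- if `chiM (p^n) g` is the class of the natural number `k` then `cyc g ≡ k` modulo `p^n` -/
theorem cyc_sub_natCast_mem (n : ℕ) (g : Gal) (k : ℕ)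
    (h : ((chiM (p ^ n) g : (ZMod (p ^ n))ˣ) : ZMod (p ^ n)) = (k : ZMod (p ^ n))) :
    ((cyc hR g : Rˣ) : R) - (k : R) ∈ Ideal.span {(p : R) ^ n} := by
  have h1 : ((cyc hR g : Rˣ) : R) - (k : R)
      = (((cyc hR g : Rˣ) : R) - approx p R n g) - ((k : R) - approx p R n g) := by ring
  rw [h1]
  exact sub_mem (cyc_spec hR n g) (natCast_sub_approx_mem n g k h.symm)

/-- if `chiM (p^n) g = chiM (p^n) g'` then `cyc g ≡ cyc g'` modulo `p^n` -/
theorem cyc_sub_mem_of_chiM_eq (n : ℕ) (g g' : Gal) (h : chiM (p ^ n) g = chiM (p ^ n) g') :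
    ((cyc hR g : Rˣ) : R) - ((cyc hR g' : Rˣ) : R) ∈ Ideal.span {(p : R) ^ n} := by
  have h1 : ((cyc hR g : Rˣ) : R) - ((cyc hR g' : Rˣ) : R)
      = (((cyc hR g : Rˣ) : R) - approx p R n g) - (((cyc hR g' : Rˣ) : R) - approx p R n g') := by
    unfold approx
    rw [h]
    ring
  rw [h1]
  exact sub_mem (cyc_spec hR n g) (cyc_spec hR n g')

/-- if `chiM (p^n) g = 1` then `cyc g ≡ 1` modulo `p^n` -/
theorem cyc_sub_one_mem_of_chiM_eq_one (n : ℕ) (g : Gal) (h : chiM (p ^ n) g = 1) :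
    ((cyc hR g : Rˣ) : R) - 1 ∈ Ideal.span {(p : R) ^ n} := by
  have := cyc_sub_natCast_mem hR n g 1 (by rw [h, Units.val_one, Nat.cast_one])
  rwa [Nat.cast_one] at this

/-- an element which has trivial character at all finite levels has trivial `p`-adic character -/
theorem cyc_eq_one_of_chiM (g : Gal) (h : ∀ n, chiM (p ^ n) g = 1) : cyc hR g = 1 := by
  apply Units.ext
  rw [Units.val_one]
  apply cyc_unique
  intro n
  have := natCast_sub_approx_mem (R := R) (p := p) n g 1 (by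
    rw [h n, Units.val_one, Nat.cast_one])
  rwa [Nat.cast_one] at this

/-- modulo `p^n` the `p`-adic cyclotomic character factors through a finite level -/
theorem cyc_level (n : ℕ) : ∃ L : IntermediateField ℚ Qb, FiniteDimensional ℚ L ∧
    ∀ σ : Gal, (∀ x ∈ L, σ x = x) → ((cyc hR σ : Rˣ) : R) - 1 ∈ Ideal.span {(p : R) ^ n} := by
  obtain ⟨L, hL, h⟩ := chiM_finiteLevel (p ^ n)
  exact ⟨L, hL, fun σ hσ => cyc_sub_one_mem_of_chiM_eq_one hR n σ (h σ hσ)⟩

/-- the value at complex conjugation -/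
theorem cyc_conj₀ : cyc hR conj₀ = -1 := by
  apply Units.ext
  rw [Units.val_neg, Units.val_one]
  apply cyc_unique
  intro n
  have h1 : 1 ≤ p ^ n := Nat.one_le_pow _ _ hp.out.pos
  have := natCast_sub_approx_mem (R := R) (p := p) n conj₀ (p ^ n - 1) (by
    rw [chiM_conj₀, Units.val_neg, Units.val_one, Nat.cast_sub h1, ZMod.natCast_self, zero_sub,
      Nat.cast_one])
  have e : (-1 : R) - approx p R n conj₀
      = (((p ^ n - 1 : ℕ) : R) - approx p R n conj₀) - (p : R) ^ n := by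
    rw [Nat.cast_sub h1, Nat.cast_pow, Nat.cast_one]
    ring
  rw [e]
  exact sub_mem this (Ideal.subset_span rfl)

section Local

variable (A : ValuationSubring Qb) (ℓ : ℕ) [hℓ : Fact ℓ.Prime] (hA : A.LiesOverPrime ℓ)

include hA in
/-- the value at a Frobenius element at `ℓ ≠ p` -/
theorem cyc_frobenius (hℓp : ℓ ≠ p) (σ : Gal) (hσ : A.IsFrobeniusAt σ ℓ) :
    ((cyc hR σ : Rˣ) : R) = (ℓ : R) := by
  apply cyc_unique
  intro n
  apply natCast_sub_approx_mem
  have hnd : ¬ ℓ ∣ p ^ n := fun h =>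
    hℓp ((Nat.prime_dvd_prime_iff_eq hℓ.out hp.out).1 (hℓ.out.dvd_of_dvd_pow h))
  exact (chiM_frobenius (p ^ n) A ℓ hA hnd σ hσ).symm

include hA in
/-- the `p`-adic cyclotomic character is trivial on inertia at `ℓ ≠ p` -/
theorem cyc_inertia (hℓp : ℓ ≠ p) (τ : Gal) (hτ : τ ∈ A.inertiaSubgroupIn ℚ) :
    cyc hR τ = 1 := by
  apply cyc_eq_one_of_chiM
  intro n
  have hnd : ¬ ℓ ∣ p ^ n := fun h =>
    hℓp ((Nat.prime_dvd_prime_iff_eq hℓ.out hp.out).1 (hℓ.out.dvd_of_dvd_pow h))
  exact chiM_inertia (p ^ n) A ℓ hA hnd τ hτ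

end Local

end Char

/-! ### complete discrete valuation rings -/

section DVR

variable (p : ℕ) [hp : Fact p.Prime] (𝒪 : Type) [CommRing 𝒪] [IsDomain 𝒪]
  [IsDiscreteValuationRing 𝒪]

theorem span_pow_le_maximalIdeal_pow (hp𝒪 : (p : 𝒪) ∈ IsLocalRing.maximalIdeal 𝒪) (n : ℕ) :
    Ideal.span {(p : 𝒪) ^ n} ≤ IsLocalRing.maximalIdeal 𝒪 ^ n := by
  rw [Ideal.span_singleton_le_iff_mem]
  exact Ideal.pow_mem_pow hp𝒪 n

theorem exists_maximalIdeal_pow_le (hp0 : (p : 𝒪) ≠ 0) (n : ℕ) :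
    ∃ N, IsLocalRing.maximalIdeal 𝒪 ^ N ≤ Ideal.span {(p : 𝒪) ^ n} := by
  obtain ⟨ϖ, hϖ⟩ := IsDiscreteValuationRing.exists_irreducible 𝒪
  have hne : Ideal.span {(p : 𝒪) ^ n} ≠ ⊥ := by
    rw [Ne, Ideal.span_singleton_eq_bot]
    exact pow_ne_zero n hp0
  obtain ⟨N, hN⟩ := IsDiscreteValuationRing.ideal_eq_span_pow_irreducible hne hϖ
  refine ⟨N, ?_⟩
  rw [hN, hϖ.maximalIdeal_eq, Ideal.span_singleton_pow]

variable [IsAdicComplete (IsLocalRing.maximalIdeal 𝒪) 𝒪]

/-- a complete discrete valuation ring in which `p` is a nonzero nonunit is `p`-adic -/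
theorem isPAdic_of_dvr (hp𝒪 : (p : 𝒪) ∈ IsLocalRing.maximalIdeal 𝒪) (hp0 : (p : 𝒪) ≠ 0) :
    IsPAdic p 𝒪 := by
  constructor
  · intro a ha
    have hc : ∀ {m n : ℕ}, m ≤ n →
        a m ≡ a n [SMOD (IsLocalRing.maximalIdeal 𝒪 ^ m • ⊤ : Submodule 𝒪 𝒪)] := by
      intro m n hmn
      rw [SModEq.sub_mem, smul_eq_mul, Ideal.mul_top, ← neg_sub]
      exact neg_mem (span_pow_le_maximalIdeal_pow p 𝒪 hp𝒪 m (sub_mem_of_succ _ a ha hmn))
    obtain ⟨d, hd⟩ := IsPrecomplete.prec inferInstance hc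
    refine ⟨d, fun n => ?_⟩
    obtain ⟨N, hN⟩ := exists_maximalIdeal_pow_le p 𝒪 hp0 n
    have h2 := hd (max N n)
    rw [SModEq.sub_mem, smul_eq_mul, Ideal.mul_top] at h2
    have h3 : d - a (max N n) ∈ Ideal.span {(p : 𝒪) ^ n} := by
      rw [← neg_sub]
      exact neg_mem (hN (Ideal.pow_le_pow_right (le_max_left N n) h2))
    have h4 : d - a n = (d - a (max N n)) + (a (max N n) - a n) := by ring
    rw [h4]
    exact add_mem h3 (sub_mem_of_succ _ a ha (le_max_right N n))
  · intro a ha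
    have h1 : ∀ n, a ∈ (IsLocalRing.maximalIdeal 𝒪 ^ n • ⊤ : Submodule 𝒪 𝒪) := by
      intro n
      rw [smul_eq_mul, Ideal.mul_top]
      exact span_pow_le_maximalIdeal_pow p 𝒪 hp𝒪 n (ha n)
    have hH : IsHausdorff (IsLocalRing.maximalIdeal 𝒪) 𝒪 := inferInstance
    exact hH.haus a fun n => by
      rw [SModEq.zero]
      exact h1 n

/-- a complete discrete valuation ring of characteristic zero with `p` in the maximal ideal is
`p`-adic -/
theorem isPAdic_of_dvr_charZero [CharZero 𝒪] (hp𝒪 : (p : 𝒪) ∈ IsLocalRing.maximalIdeal 𝒪) :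
    IsPAdic p 𝒪 :=
  isPAdic_of_dvr p 𝒪 hp𝒪 (Nat.cast_ne_zero.2 hp.out.ne_zero)

end DVR

end Fermat.Agent.S30.CycAdic
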