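import Mathlib
import Fermat.Prelude.Def_CuspForm_HeckeGaloisRepDatum
import Fermat.Agent.S30.CycAdic

/-!
# C80 (S30), piece ASM: assembly of the statement S30

* `Concl p N S 𝒪' χ` : the conclusion of S30 (verbatim);
* `concl_of_rep` : a representation over `𝒪'` itself with the right characteristic polynomials at
  Frobenius elements, unramified outside `Np`, gives `Concl` (with `𝒪'' := 𝒪'`);
* `HasTrace p N S χ D` : the output of the piece TR (a trace function `Tr : Gal → 𝒪'` with the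
  identities of a pseudo-character of determinant `D`, the right values at Frobenius elements,
  invariance under inertia outside `Np` and continuity);
* `LatStatement 𝒪'` : the statement of the piece LAT (pseudo-character ⇒ lattice representation);
* `concl_of_trace` : `LatStatement` + `HasTrace` for the `p`-adic cyclotomic character ⇒ `Concl`.
-/

set_option autoImplicit false
set_option linter.unusedSectionVars false
set_option linter.style.haveILetI false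

noncomputable section

namespace Fermat.Agent.S30.Asm

open Polynomial CuspForm

local notation "Qb" => AlgebraicClosure ℚ
local notation "Gal" => (AlgebraicClosure ℚ ≃ₐ[ℚ] AlgebraicClosure ℚ)

/-- the conclusion of S30 -/
def Concl (p : ℕ) (N : ℕ) [NeZero N] (S : Finset ℕ) (𝒪' : Type) [CommRing 𝒪']
    (χ : CuspForm.heckeAlgebra N 2 (↑S : Set ℕ) →+* 𝒪') : Prop :=
  ∃ (𝒪'' : Type) (_ : CommRing 𝒪'') (_ : IsDomain 𝒪'') (_ : IsDiscreteValuationRing 𝒪'')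
    (_ : IsAdicComplete (IsLocalRing.maximalIdeal 𝒪'') 𝒪'')
    (_ : Finite (IsLocalRing.ResidueField 𝒪'')) (_ : CharZero 𝒪'')
    (_ : Algebra 𝒪' 𝒪'') (_ : Module.Finite 𝒪' 𝒪'') (_ : IsLocalHom (algebraMap 𝒪' 𝒪'')),
  Function.Injective (algebraMap 𝒪' 𝒪'') ∧
  ∃ ρ : GaloisRepAdic 𝒪'',
    (∀ (ℓ : ℕ) (hℓ : ℓ.Prime) (hℓN : ¬ ℓ ∣ N) (hℓS : ℓ ∉ (↑S : Set ℕ)),
      ∀ A : ValuationSubring (AlgebraicClosure ℚ), A.LiesOverPrime ℓ →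
        ∀ σ : AlgebraicClosure ℚ ≃ₐ[ℚ] AlgebraicClosure ℚ, A.IsFrobeniusAt σ ℓ →
          LinearMap.charpoly (ρ.ρ σ) =
            X ^ 2 - C (algebraMap 𝒪' 𝒪'' (χ (CuspForm.heckeAlgebra.T hℓ hℓN hℓS))) * X
              + C ((ℓ : 𝒪''))) ∧
    (∀ q : ℕ, q.Prime → ¬ q ∣ N → q ≠ p → ρ.IsUnramifiedAt q)

section

variable (p : ℕ) [hp : Fact p.Prime] (N : ℕ) [NeZero N] (S : Finset ℕ)
  (𝒪' : Type) [CommRing 𝒪'] [IsDomain 𝒪'] [IsDiscreteValuationRing 𝒪']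
  [IsAdicComplete (IsLocalRing.maximalIdeal 𝒪') 𝒪'] [Finite (IsLocalRing.ResidueField 𝒪')]
  [CharZero 𝒪']
  (χ : CuspForm.heckeAlgebra N 2 (↑S : Set ℕ) →+* 𝒪')

/-- a representation over `𝒪'` itself suffices -/
theorem concl_of_rep (ρ : GaloisRepAdic 𝒪')
    (hchar : ∀ (ℓ : ℕ) (hℓ : ℓ.Prime) (hℓN : ¬ ℓ ∣ N) (hℓS : ℓ ∉ (↑S : Set ℕ)),
      ∀ A : ValuationSubring (AlgebraicClosure ℚ), A.LiesOverPrime ℓ →
        ∀ σ : AlgebraicClosure ℚ ≃ₐ[ℚ] AlgebraicClosure ℚ, A.IsFrobeniusAt σ ℓ →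
          LinearMap.charpoly (ρ.ρ σ) =
            X ^ 2 - C (χ (CuspForm.heckeAlgebra.T hℓ hℓN hℓS)) * X + C ((ℓ : 𝒪')))
    (hunr : ∀ q : ℕ, q.Prime → ¬ q ∣ N → q ≠ p → ρ.IsUnramifiedAt q) :
    Concl p N S 𝒪' χ :=
  ⟨𝒪', inferInstance, inferInstance, inferInstance, inferInstance, inferInstance, inferInstance,
    Algebra.id 𝒪', Module.Finite.self 𝒪', ⟨fun _ h => h⟩, Function.injective_id, ρ, hchar, hunr⟩

end

/-- the output of the piece TR: a trace function for `χ` with determinant `D` -/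
def HasTrace (p : ℕ) (N : ℕ) [NeZero N] (S : Finset ℕ) {𝒪' : Type} [CommRing 𝒪']
    (χ : CuspForm.heckeAlgebra N 2 (↑S : Set ℕ) →+* 𝒪') (D : Gal →* 𝒪'ˣ) : Prop :=
  ∃ Tr : Gal → 𝒪', Tr 1 = 2 ∧ (∀ g h, Tr (g * h) = Tr (h * g)) ∧
    (∀ g h, Tr (g * h) + ((D h : 𝒪'ˣ) : 𝒪') * Tr (g * h⁻¹) = Tr g * Tr h) ∧
    (∀ (ℓ : ℕ) (hℓ : ℓ.Prime) (hℓN : ¬ ℓ ∣ N) (hℓS : ℓ ∉ (↑S : Set ℕ)),
      ∀ A : ValuationSubring Qb, A.LiesOverPrime ℓ → ∀ σ : Gal, A.IsFrobeniusAt σ ℓ →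
        Tr σ = χ (CuspForm.heckeAlgebra.T hℓ hℓN hℓS)) ∧
    (∀ q : ℕ, q.Prime → ¬ q ∣ N → q ≠ p → ∀ A : ValuationSubring Qb, A.LiesOverPrime q →
      ∀ h ∈ A.inertiaSubgroupIn ℚ, ∀ g, Tr (g * h) = Tr g) ∧
    (∀ n : ℕ, ∃ L : IntermediateField ℚ Qb, FiniteDimensional ℚ L ∧
      ∀ σ : Gal, (∀ x ∈ L, σ x = x) → ∀ g, Tr (g * σ) - Tr g ∈ Ideal.span {(p : 𝒪') ^ n})

/-- the statement of the piece LAT: a continuous two dimensional pseudo-character with values in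
a discrete valuation ring is the trace of a representation on a lattice -/
def LatStatement (𝒪' : Type) [CommRing 𝒪'] [IsDomain 𝒪'] [IsDiscreteValuationRing 𝒪'] : Prop :=
  ∀ (Tr : Gal → 𝒪') (D : Gal →* 𝒪'ˣ) (c₀ : Gal), c₀ * c₀ = 1 → D c₀ = -1 →
    Tr 1 = 2 → (∀ g h, Tr (g * h) = Tr (h * g)) →
    (∀ g h, Tr (g * h) + ((D h : 𝒪'ˣ) : 𝒪') * Tr (g * h⁻¹) = Tr g * Tr h) →
    (∀ n : ℕ, ∃ L : IntermediateField ℚ Qb, FiniteDimensional ℚ L ∧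
      ∀ σ : Gal, (∀ x ∈ L, σ x = x) → ∀ g, Tr (g * σ) - Tr g ∈ IsLocalRing.maximalIdeal 𝒪' ^ n) →
    ∃ ρ : GaloisRepAdic 𝒪',
      (∀ g, LinearMap.charpoly (ρ.ρ g) = X ^ 2 - C (Tr g) * X + C (((D g : 𝒪'ˣ) : 𝒪'))) ∧
      (∀ h, (∀ g, Tr (g * h) = Tr g) → ρ.ρ h = 1)

section

variable (p : ℕ) [hp : Fact p.Prime] (N : ℕ) [NeZero N] (S : Finset ℕ)
  (hpS : p ∈ S)
  (𝒪' : Type) [CommRing 𝒪'] [IsDomain 𝒪'] [IsDiscreteValuationRing 𝒪']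
  [IsAdicComplete (IsLocalRing.maximalIdeal 𝒪') 𝒪'] [Finite (IsLocalRing.ResidueField 𝒪')]
  [CharZero 𝒪'] (hp𝒪' : (p : 𝒪') ∈ IsLocalRing.maximalIdeal 𝒪')
  (χ : CuspForm.heckeAlgebra N 2 (↑S : Set ℕ) →+* 𝒪')

include hpS in
/-- **Assembly of S30** from the pieces LAT and TR. -/
theorem concl_of_trace (hLat : LatStatement 𝒪')
    (hTr : HasTrace p N S χ (CycAdic.cyc (CycAdic.isPAdic_of_dvr_charZero p 𝒪' hp𝒪'))) :
    Concl p N S 𝒪' χ := by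
  obtain ⟨Tr, h1, hcomm, hmul, hfrob, hin, hcont⟩ := hTr
  have hcont' : ∀ n : ℕ, ∃ L : IntermediateField ℚ Qb, FiniteDimensional ℚ L ∧
      ∀ σ : Gal, (∀ x ∈ L, σ x = x) → ∀ g,
        Tr (g * σ) - Tr g ∈ IsLocalRing.maximalIdeal 𝒪' ^ n := by
    intro n
    obtain ⟨L, hL, h⟩ := hcont n
    exact ⟨L, hL, fun σ hσ g =>
      CycAdic.span_pow_le_maximalIdeal_pow p 𝒪' hp𝒪' n (h σ hσ g)⟩
  obtain ⟨ρ, hρ, hρ1⟩ := hLat Tr _ Fermat.Agent.S31.Cyc.conj₀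
    Fermat.Agent.S31.Cyc.conj₀_mul_self (CycAdic.cyc_conj₀ _) h1 hcomm hmul hcont'
  refine concl_of_rep p N S 𝒪' χ ρ ?_ ?_
  · intro ℓ hℓ hℓN hℓS A hA σ hσ
    haveI : Fact ℓ.Prime := ⟨hℓ⟩
    have hℓp : ℓ ≠ p := by
      rintro rfl
      exact hℓS (Finset.mem_coe.2 hpS)
    rw [hρ σ, hfrob ℓ hℓ hℓN hℓS A hA σ hσ, CycAdic.cyc_frobenius _ A ℓ hA hℓp σ hσ]
  · intro q hq hqN hqp A hA h hh
    exact hρ1 h (hin q hq hqN hqp A hA h hh)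

end

end Fermat.Agent.S30.Asm
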