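import Fermat.Agent.S30.PseudoRep
import Fermat.Prelude.Def_GaloisRep_Adic

/-!
# S30 (C80), piece LAT: from a bounded representation over `Frac 𝒪` to a lattice

`𝒪` a discrete valuation ring, `E = Frac 𝒪`, `ρ : G →* M₂(E)` whose entries are fixed
`E`-linear combinations of the values `T (w g)` of a function `T : G → 𝒪`. Then
`Λ = Σ_g ρ(g) 𝒪²` is a `G`-stable lattice, free of rank two over `𝒪`.
-/

set_option autoImplicit false
set_option linter.unusedSectionVars false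
set_option linter.unusedVariables false

open Polynomial

namespace Fermat.Agent.S30.LAT

variable {G : Type*} [Group G] {𝒪 : Type*} [CommRing 𝒪] [IsDomain 𝒪]
variable {E : Type*} [Field E] [Algebra 𝒪 E] [IsFractionRing 𝒪 E]

/-- the data of a representation with entries linear in `T` -/
structure Lin (T : G → 𝒪) (ρ : G →* Matrix (Fin 2) (Fin 2) E) (n : ℕ) (w : Fin n → G)
    (coef : Fin 2 → Fin 2 → Fin n → E) : Prop where
  cyc : ∀ g h, T (g * h) = T (h * g)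
  entry : ∀ g i j, ρ g i j = ∑ k, coef i j k * algebraMap 𝒪 E (T (w k * g))

section

variable {T : G → 𝒪} {ρ : G →* Matrix (Fin 2) (Fin 2) E} {n : ℕ} {w : Fin n → G}
  {coef : Fin 2 → Fin 2 → Fin n → E}

/-- a common denominator of the coefficients -/
theorem exists_denominator (coef : Fin 2 → Fin 2 → Fin n → E) :
    ∃ (δ : 𝒪) (c' : Fin 2 → Fin 2 → Fin n → 𝒪), δ ≠ 0 ∧
      ∀ i j k, algebraMap 𝒪 E δ * coef i j k = algebraMap 𝒪 E (c' i j k) := by
  classical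
  obtain ⟨b, hb⟩ := IsLocalization.exist_integer_multiples_of_finset (nonZeroDivisors 𝒪)
    (Finset.univ.image fun x : Fin 2 × Fin 2 × Fin n => coef x.1 x.2.1 x.2.2)
  have hb' : ∀ i j k, ∃ z : 𝒪, algebraMap 𝒪 E z = algebraMap 𝒪 E b * coef i j k := by
    intro i j k
    have := hb (coef i j k) (Finset.mem_image.2 ⟨(i, j, k), Finset.mem_univ _, rfl⟩)
    obtain ⟨z, hz⟩ := this
    refine ⟨z, ?_⟩
    rw [hz, Algebra.smul_def]
  choose c' hc' using hb'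
  exact ⟨b, c', nonZeroDivisors.ne_zero b.2, fun i j k => (hc' i j k).symm⟩

include T in
/-- boundedness of differences -/
theorem Lin.diff_mem (h : Lin T ρ n w coef) {δ : 𝒪} {c' : Fin 2 → Fin 2 → Fin n → 𝒪}
    (hc' : ∀ i j k, algebraMap 𝒪 E δ * coef i j k = algebraMap 𝒪 E (c' i j k))
    (I : Ideal 𝒪) {g g' : G} (hgg' : ∀ k, T (w k * g) - T (w k * g') ∈ I) (i j : Fin 2) :
    ∃ z ∈ I, algebraMap 𝒪 E δ * (ρ g i j - ρ g' i j) = algebraMap 𝒪 E z := by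
  refine ⟨∑ k, c' i j k * (T (w k * g) - T (w k * g')),
    I.sum_mem fun k _ => I.mul_mem_left _ (hgg' k), ?_⟩
  rw [h.entry, h.entry, ← Finset.sum_sub_distrib, Finset.mul_sum, map_sum]
  refine Finset.sum_congr rfl fun k _ => ?_
  rw [map_mul, ← hc', map_sub]
  ring

include T in
/-- boundedness -/
theorem Lin.entry_mem (h : Lin T ρ n w coef) {δ : 𝒪} {c' : Fin 2 → Fin 2 → Fin n → 𝒪}
    (hc' : ∀ i j k, algebraMap 𝒪 E δ * coef i j k = algebraMap 𝒪 E (c' i j k))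
    (g : G) (i j : Fin 2) :
    ∃ z : 𝒪, algebraMap 𝒪 E δ * ρ g i j = algebraMap 𝒪 E z := by
  refine ⟨∑ k, c' i j k * T (w k * g), ?_⟩
  rw [h.entry, Finset.mul_sum, map_sum]
  refine Finset.sum_congr rfl fun k _ => ?_
  rw [map_mul, ← hc']
  ring

end

/-! ### the lattice -/

section Lattice

variable (𝒪) in
/-- the standard basis vectors of `E²` -/
def stdVec (E : Type*) [Field E] (j : Fin 2) : Fin 2 → E := Pi.single j 1

/-- `ρ g` as an `𝒪`-linear endomorphism of `E²` -/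
noncomputable def actLin (𝒪 : Type*) [CommRing 𝒪] {E : Type*} [Field E] [Algebra 𝒪 E]
    (ρ : G →* Matrix (Fin 2) (Fin 2) E) (g : G) : (Fin 2 → E) →ₗ[𝒪] (Fin 2 → E) :=
  (Matrix.mulVecLin (ρ g)).restrictScalars 𝒪

@[simp]
theorem actLin_apply (ρ : G →* Matrix (Fin 2) (Fin 2) E) (g : G) (v : Fin 2 → E) :
    actLin 𝒪 ρ g v = (ρ g).mulVec v := rfl

theorem actLin_mul (ρ : G →* Matrix (Fin 2) (Fin 2) E) (g h : G) (v : Fin 2 → E) :
    actLin 𝒪 ρ (g * h) v = actLin 𝒪 ρ g (actLin 𝒪 ρ h v) := by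
  simp only [actLin_apply, map_mul, Matrix.mulVec_mulVec]

theorem actLin_one (ρ : G →* Matrix (Fin 2) (Fin 2) E) (v : Fin 2 → E) :
    actLin 𝒪 ρ 1 v = v := by
  simp only [actLin_apply, map_one, Matrix.one_mulVec]

/-- the lattice `Σ_g ρ(g) 𝒪²` -/
noncomputable def lat (𝒪 : Type*) [CommRing 𝒪] {E : Type*} [Field E] [Algebra 𝒪 E]
    (ρ : G →* Matrix (Fin 2) (Fin 2) E) : Submodule 𝒪 (Fin 2 → E) :=
  Submodule.span 𝒪 (Set.range fun x : G × Fin 2 => actLin 𝒪 ρ x.1 (stdVec E x.2))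

variable {ρ : G →* Matrix (Fin 2) (Fin 2) E}

theorem stdVec_mem_lat (j : Fin 2) : stdVec E j ∈ lat 𝒪 ρ :=
  Submodule.subset_span ⟨(1, j), actLin_one ρ _⟩

theorem actLin_mem_lat (h : G) {v : Fin 2 → E} (hv : v ∈ lat 𝒪 ρ) :
    actLin 𝒪 ρ h v ∈ lat 𝒪 ρ := by
  induction hv using Submodule.span_induction with
  | mem x hx =>
    obtain ⟨⟨g, j⟩, rfl⟩ := hx
    refine Submodule.subset_span ⟨(h * g, j), ?_⟩
    exact actLin_mul ρ h g _
  | zero => rw [map_zero]; exact zero_mem _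
  | add x y _ _ hx hy => rw [map_add]; exact add_mem hx hy
  | smul c x _ hx => rw [map_smul]; exact Submodule.smul_mem _ _ hx

theorem actLin_stdVec (g : G) (j i : Fin 2) : actLin 𝒪 ρ g (stdVec E j) i = ρ g i j := by
  simp [actLin_apply, stdVec]

/-- the embedding `𝒪² → E²` -/
noncomputable def incl (𝒪 : Type*) [CommRing 𝒪] (E : Type*) [Field E] [Algebra 𝒪 E] :
    (Fin 2 → 𝒪) →ₗ[𝒪] (Fin 2 → E) :=
  (Algebra.linearMap 𝒪 E).compLeft (Fin 2)

@[simp]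
theorem incl_apply (u : Fin 2 → 𝒪) (i : Fin 2) : incl 𝒪 E u i = algebraMap 𝒪 E (u i) := rfl

theorem incl_injective : Function.Injective (incl 𝒪 E) := by
  intro u u' h
  funext i
  have := congrFun h i
  exact IsFractionRing.injective 𝒪 E this

variable {T : G → 𝒪} {n : ℕ} {w : Fin n → G} {coef : Fin 2 → Fin 2 → Fin n → E}

include T in
/-- `δ Λ ⊆ 𝒪²` -/
theorem Lin.smul_mem_range (h : Lin T ρ n w coef) {δ : 𝒪} {c' : Fin 2 → Fin 2 → Fin n → 𝒪}
    (hc' : ∀ i j k, algebraMap 𝒪 E δ * coef i j k = algebraMap 𝒪 E (c' i j k))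
    {v : Fin 2 → E} (hv : v ∈ lat 𝒪 ρ) : δ • v ∈ LinearMap.range (incl 𝒪 E) := by
  induction hv using Submodule.span_induction with
  | mem x hx =>
    obtain ⟨⟨g, j⟩, rfl⟩ := hx
    choose z hz using fun i => h.entry_mem hc' g i j
    refine ⟨z, ?_⟩
    funext i
    show algebraMap 𝒪 E (z i) = δ • actLin 𝒪 ρ g (stdVec E j) i
    rw [← hz i, actLin_stdVec, Algebra.smul_def]
  | zero => rw [smul_zero]; exact zero_mem _
  | add x y _ _ hx hy => rw [smul_add]; exact add_mem hx hy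
  | smul c x _ hx => rw [smul_comm]; exact Submodule.smul_mem _ _ hx

theorem smul_injective_of_ne_zero {δ : 𝒪} (hδ : δ ≠ 0) :
    Function.Injective fun v : Fin 2 → E => δ • v := by
  intro v v' hvv'
  funext i
  have := congrFun hvv' i
  simp only [Pi.smul_apply, Algebra.smul_def] at this
  have h0 : algebraMap 𝒪 E δ ≠ 0 := fun h0 =>
    hδ (IsFractionRing.injective 𝒪 E (by rw [h0, map_zero]))
  exact mul_left_cancel₀ h0 this

/-- the map `Λ → 𝒪²`, `v ↦ δ v` -/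
noncomputable def toRange (h : Lin T ρ n w coef) {δ : 𝒪} {c' : Fin 2 → Fin 2 → Fin n → 𝒪}
    (hc' : ∀ i j k, algebraMap 𝒪 E δ * coef i j k = algebraMap 𝒪 E (c' i j k)) :
    lat 𝒪 ρ →ₗ[𝒪] LinearMap.range (incl 𝒪 E) where
  toFun v := ⟨δ • (v : Fin 2 → E), h.smul_mem_range hc' v.2⟩
  map_add' v v' := by
    apply Subtype.ext
    simp only [Submodule.coe_add, smul_add]
  map_smul' c v := by
    apply Subtype.ext
    simp only [Submodule.coe_smul, RingHom.id_apply, smul_comm δ c]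

theorem toRange_injective (h : Lin T ρ n w coef) {δ : 𝒪} {c' : Fin 2 → Fin 2 → Fin n → 𝒪}
    (hc' : ∀ i j k, algebraMap 𝒪 E δ * coef i j k = algebraMap 𝒪 E (c' i j k)) (hδ : δ ≠ 0) :
    Function.Injective (toRange h hc') := by
  intro v v' hvv'
  apply Subtype.ext
  have := congrArg Subtype.val hvv'
  exact smul_injective_of_ne_zero hδ this

theorem incl_mem_lat (u : Fin 2 → 𝒪) : incl 𝒪 E u ∈ lat 𝒪 ρ := by
  have : incl 𝒪 E u = ∑ j, u j • stdVec E j := by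
    funext i
    rw [incl_apply, Finset.sum_apply, Finset.sum_eq_single i]
    · simp [stdVec, Algebra.smul_def]
    · intro b _ hb
      simp [stdVec, hb]
    · intro hi
      exact absurd (Finset.mem_univ i) hi
  rw [this]
  exact Submodule.sum_mem _ fun j _ => Submodule.smul_mem _ _ (stdVec_mem_lat j)

/-- the map `𝒪² → Λ` -/
noncomputable def ofStd (ρ : G →* Matrix (Fin 2) (Fin 2) E) : (Fin 2 → 𝒪) →ₗ[𝒪] lat 𝒪 ρ :=
  (incl 𝒪 E).codRestrict (lat 𝒪 ρ) incl_mem_lat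

theorem ofStd_injective : Function.Injective (ofStd (𝒪 := 𝒪) ρ) := by
  intro u u' huu'
  have := congrArg Subtype.val huu'
  exact incl_injective this

end Lattice

/-! ### freeness and rank -/

section Free

variable [IsPrincipalIdealRing 𝒪]
variable {ρ : G →* Matrix (Fin 2) (Fin 2) E}
variable {T : G → 𝒪} {n : ℕ} {w : Fin n → G} {coef : Fin 2 → Fin 2 → Fin n → E}

include T in
theorem Lin.lat_finite (h : Lin T ρ n w coef) : Module.Finite 𝒪 (lat 𝒪 ρ) := by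
  obtain ⟨δ, c', hδ, hc'⟩ := exists_denominator (𝒪 := 𝒪) coef
  exact Module.Finite.of_injective (toRange h hc') (toRange_injective h hc' hδ)

include T in
theorem Lin.lat_finrank (h : Lin T ρ n w coef) : Module.finrank 𝒪 (lat 𝒪 ρ) = 2 := by
  obtain ⟨δ, c', hδ, hc'⟩ := exists_denominator (𝒪 := 𝒪) coef
  have := h.lat_finite
  have h1 : Module.finrank 𝒪 (Fin 2 → 𝒪) ≤ Module.finrank 𝒪 (lat 𝒪 ρ) :=
    LinearMap.finrank_le_finrank_of_injective (ofStd_injective (𝒪 := 𝒪) (ρ := ρ))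
  have h2 : Module.finrank 𝒪 (lat 𝒪 ρ) ≤ Module.finrank 𝒪 (LinearMap.range (incl 𝒪 E)) :=
    LinearMap.finrank_le_finrank_of_injective (toRange_injective h hc' hδ)
  have h3 : Module.finrank 𝒪 (LinearMap.range (incl 𝒪 E)) = Module.finrank 𝒪 (Fin 2 → 𝒪) :=
    LinearMap.finrank_range_of_inj incl_injective
  have h4 : Module.finrank 𝒪 (Fin 2 → 𝒪) = 2 := by
    rw [Module.finrank_fin_fun]
  omega

end Free

/-! ### the representation on the lattice -/

section Rep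

variable {ρ : G →* Matrix (Fin 2) (Fin 2) E}
variable {T : G → 𝒪} {n : ℕ} {w : Fin n → G} {coef : Fin 2 → Fin 2 → Fin n → E}

/-- the representation on the lattice -/
noncomputable def latRep (ρ : G →* Matrix (Fin 2) (Fin 2) E) :
    G →* Module.End 𝒪 (lat 𝒪 ρ) where
  toFun g := (actLin 𝒪 ρ g).restrict (fun v hv => actLin_mem_lat g hv)
  map_one' := by
    refine LinearMap.ext fun v => Subtype.ext ?_
    show actLin 𝒪 ρ 1 (v : Fin 2 → E) = v
    exact actLin_one ρ _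
  map_mul' g h := by
    refine LinearMap.ext fun v => Subtype.ext ?_
    show actLin 𝒪 ρ (g * h) (v : Fin 2 → E) = actLin 𝒪 ρ g (actLin 𝒪 ρ h v)
    exact actLin_mul ρ g h _

theorem latRep_coe (g : G) (v : lat 𝒪 ρ) :
    ((latRep (𝒪 := 𝒪) ρ g v : lat 𝒪 ρ) : Fin 2 → E) = (ρ g).mulVec (v : Fin 2 → E) := rfl

include T in
/-- trivial action -/
theorem Lin.rho_eq_one (h : Lin T ρ n w coef) {σ : G} (hσ : ∀ g, T (g * σ) = T g) :
    ρ σ = 1 := by
  rw [← map_one ρ]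
  ext i j
  rw [h.entry, h.entry]
  refine Finset.sum_congr rfl fun k _ => ?_
  rw [hσ, mul_one]

include T in
theorem Lin.latRep_eq_one (h : Lin T ρ n w coef) {σ : G} (hσ : ∀ g, T (g * σ) = T g) :
    latRep (𝒪 := 𝒪) ρ σ = 1 := by
  refine LinearMap.ext fun v => Subtype.ext ?_
  rw [latRep_coe, h.rho_eq_one hσ, Matrix.one_mulVec]
  rfl

include T in
/-- continuity, on the level of `E²` -/
theorem Lin.sub_mem (h : Lin T ρ n w coef) {δ : 𝒪} {c' : Fin 2 → Fin 2 → Fin n → 𝒪}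
    (hc' : ∀ i j k, algebraMap 𝒪 E δ * coef i j k = algebraMap 𝒪 E (c' i j k)) (hδ : δ ≠ 0)
    (I J : Ideal 𝒪) (hIJ : ∀ z ∈ I, ∃ z' ∈ J, z = δ * z')
    {σ : G} (hσ : ∀ g, T (g * σ) - T g ∈ I) {v : Fin 2 → E} (hv : v ∈ lat 𝒪 ρ) :
    ∃ z' : Fin 2 → 𝒪, (∀ i, z' i ∈ J) ∧ actLin 𝒪 ρ σ v - v = incl 𝒪 E z' := by
  have h0 : algebraMap 𝒪 E δ ≠ 0 := fun h0 =>
    hδ (IsFractionRing.injective 𝒪 E (by rw [h0, map_zero]))
  induction hv using Submodule.span_induction with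
  | mem x hx =>
    obtain ⟨⟨g, j⟩, rfl⟩ := hx
    have hk : ∀ k, T (w k * (σ * g)) - T (w k * g) ∈ I := by
      intro k
      have e1 : T (w k * (σ * g)) = T (g * w k * σ) := by
        rw [← mul_assoc, h.cyc, mul_assoc]
      have e2 : T (w k * g) = T (g * w k) := h.cyc _ _
      rw [e1, e2]
      exact hσ _
    choose z hzI hz using fun i => h.diff_mem hc' I hk i j
    choose z' hz'J hz' using fun i => hIJ (z i) (hzI i)
    refine ⟨z', hz'J, ?_⟩
    funext i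
    show actLin 𝒪 ρ σ (actLin 𝒪 ρ g (stdVec E j)) i - actLin 𝒪 ρ g (stdVec E j) i
      = algebraMap 𝒪 E (z' i)
    rw [← actLin_mul, actLin_stdVec, actLin_stdVec]
    apply mul_left_cancel₀ h0
    rw [hz i, hz' i, map_mul]
  | zero =>
    refine ⟨0, fun i => zero_mem _, ?_⟩
    rw [map_zero, sub_zero, map_zero]
  | add x y _ _ hx hy =>
    obtain ⟨zx, hzx, hx⟩ := hx
    obtain ⟨zy, hzy, hy⟩ := hy
    refine ⟨zx + zy, fun i => add_mem (hzx i) (hzy i), ?_⟩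
    rw [map_add, map_add, ← hx, ← hy]
    abel
  | smul c x _ hx =>
    obtain ⟨zx, hzx, hx⟩ := hx
    refine ⟨c • zx, fun i => J.mul_mem_left c (hzx i), ?_⟩
    rw [map_smul, map_smul, ← hx, smul_sub]

include T in
/-- continuity, on the lattice -/
theorem Lin.latRep_sub_mem (h : Lin T ρ n w coef) {δ : 𝒪} {c' : Fin 2 → Fin 2 → Fin n → 𝒪}
    (hc' : ∀ i j k, algebraMap 𝒪 E δ * coef i j k = algebraMap 𝒪 E (c' i j k)) (hδ : δ ≠ 0)
    (I J : Ideal 𝒪) (hIJ : ∀ z ∈ I, ∃ z' ∈ J, z = δ * z')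
    {σ : G} (hσ : ∀ g, T (g * σ) - T g ∈ I) (v : lat 𝒪 ρ) :
    latRep (𝒪 := 𝒪) ρ σ v - v ∈ J • (⊤ : Submodule 𝒪 (lat 𝒪 ρ)) := by
  obtain ⟨z', hz'J, hz'⟩ := h.sub_mem hc' hδ I J hIJ hσ v.2
  have : latRep (𝒪 := 𝒪) ρ σ v - v = ∑ i, z' i • ofStd ρ (Pi.single i (1 : 𝒪)) := by
    apply Subtype.ext
    rw [Submodule.coe_sub, latRep_coe, ← actLin_apply (𝒪 := 𝒪), hz']
    rw [Submodule.coe_sum]
    funext i
    rw [incl_apply, Finset.sum_apply, Finset.sum_eq_single i]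
    · show _ = z' i • (incl 𝒪 E (Pi.single i (1 : 𝒪))) i
      rw [incl_apply, Pi.single_eq_same, map_one, Algebra.smul_def, mul_one]
    · intro b _ hb
      show z' b • (incl 𝒪 E (Pi.single b (1 : 𝒪))) i = 0
      rw [incl_apply, Pi.single_eq_of_ne (Ne.symm hb), map_zero, smul_zero]
    · intro hi
      exact absurd (Finset.mem_univ i) hi
  rw [this]
  exact Submodule.sum_mem _ fun i _ => Submodule.smul_mem_smul (hz'J i) Submodule.mem_top

end Rep

/-! ### the characteristic polynomial -/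

section Charpoly

variable [IsPrincipalIdealRing 𝒪]
variable {ρ : G →* Matrix (Fin 2) (Fin 2) E}
variable {T : G → 𝒪} {n : ℕ} {w : Fin n → G} {coef : Fin 2 → Fin 2 → Fin n → E}

include T in
theorem Lin.latRep_charpoly (h : Lin T ρ n w coef) [Module.Free 𝒪 (lat 𝒪 ρ)]
    [Module.Finite 𝒪 (lat 𝒪 ρ)] (g : G) (t d : 𝒪)
    (ht : (ρ g).trace = algebraMap 𝒪 E t) (hd : (ρ g).det = algebraMap 𝒪 E d) :
    LinearMap.charpoly (latRep (𝒪 := 𝒪) ρ g) = X ^ 2 - C t * X + C d := by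
  classical
  let b : Module.Basis (Fin 2) 𝒪 (lat 𝒪 ρ) := Module.finBasisOfFinrankEq 𝒪 (lat 𝒪 ρ) h.lat_finrank
  rw [← LinearMap.charpoly_toMatrix _ b]
  set M := LinearMap.toMatrix b b (latRep (𝒪 := 𝒪) ρ g) with hM
  apply Polynomial.map_injective (algebraMap 𝒪 E) (IsFractionRing.injective 𝒪 E)
  rw [← Matrix.charpoly_map]
  let B : Matrix (Fin 2) (Fin 2) E := Matrix.of fun i j => (b j : Fin 2 → E) i
  have hBcol : B.col = fun j => ((b j : lat 𝒪 ρ) : Fin 2 → E) := by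
    funext j i
    rfl
  have hli : LinearIndependent E B.col := by
    rw [hBcol]
    have h1 : LinearIndependent 𝒪 (fun j => ((b j : lat 𝒪 ρ) : Fin 2 → E)) :=
      b.linearIndependent.map' (lat 𝒪 ρ).subtype (Submodule.ker_subtype _)
    exact (LinearIndependent.iff_fractionRing 𝒪 E).1 h1
  have hB : IsUnit B := Matrix.linearIndependent_cols_iff_isUnit.1 hli
  have key : ρ g * B = B * M.map (algebraMap 𝒪 E) := by
    ext i j
    have e1 : (ρ g * B) i j = ((latRep (𝒪 := 𝒪) ρ g (b j) : lat 𝒪 ρ) : Fin 2 → E) i := by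
      rw [latRep_coe]
      rfl
    have e2 : latRep (𝒪 := 𝒪) ρ g (b j) = ∑ k, M k j • b k := by
      conv_lhs => rw [← b.sum_repr (latRep (𝒪 := 𝒪) ρ g (b j))]
      refine Finset.sum_congr rfl fun k _ => ?_
      rw [hM, LinearMap.toMatrix_apply]
    rw [e1, e2, Submodule.coe_sum, Finset.sum_apply, Matrix.mul_apply]
    refine Finset.sum_congr rfl fun k _ => ?_
    show (M k j • ((b k : lat 𝒪 ρ) : Fin 2 → E)) i = B i k * algebraMap 𝒪 E (M k j)
    rw [Pi.smul_apply, Algebra.smul_def, mul_comm]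
    rfl
  have hconj : M.map (algebraMap 𝒪 E) = (hB.unit⁻¹ : (Matrix (Fin 2) (Fin 2) E)ˣ) * ρ g * hB.unit := by
    have : ((hB.unit⁻¹ : (Matrix (Fin 2) (Fin 2) E)ˣ) : Matrix (Fin 2) (Fin 2) E) * (ρ g * B)
        = M.map (algebraMap 𝒪 E) := by
      rw [key, ← mul_assoc]
      have : ((hB.unit⁻¹ : (Matrix (Fin 2) (Fin 2) E)ˣ) : Matrix (Fin 2) (Fin 2) E) * B = 1 := by
        have := hB.unit.inv_mul
        rwa [IsUnit.unit_spec] at this
      rw [this, one_mul]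
    rw [← this, mul_assoc, IsUnit.unit_spec]
  rw [hconj, Matrix.coe_units_inv, Matrix.charpoly_units_conj', Matrix.charpoly_fin_two, ht, hd]
  simp only [Polynomial.map_add, Polynomial.map_sub, Polynomial.map_mul, Polynomial.map_pow,
    Polynomial.map_X, Polynomial.map_C]

end Charpoly

/-! ### discrete valuation rings -/

section DVR

theorem exists_pow_le_smul (𝒪 : Type*) [CommRing 𝒪] [IsDomain 𝒪] [IsDiscreteValuationRing 𝒪]
    {δ : 𝒪} (hδ : δ ≠ 0) :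
    ∃ d : ℕ, ∀ n : ℕ, ∀ z ∈ IsLocalRing.maximalIdeal 𝒪 ^ (n + d),
      ∃ z' ∈ IsLocalRing.maximalIdeal 𝒪 ^ n, z = δ * z' := by
  obtain ⟨ϖ, hϖ⟩ := IsDiscreteValuationRing.exists_irreducible 𝒪
  obtain ⟨d, u, hu⟩ := IsDiscreteValuationRing.eq_unit_mul_pow_irreducible hδ hϖ
  refine ⟨d, fun n z hz => ?_⟩
  rw [hϖ.maximalIdeal_eq, Ideal.span_singleton_pow, Ideal.mem_span_singleton'] at hz
  obtain ⟨y, rfl⟩ := hz
  refine ⟨(↑u⁻¹ : 𝒪) * y * ϖ ^ n, ?_, ?_⟩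
  · rw [hϖ.maximalIdeal_eq, Ideal.span_singleton_pow, Ideal.mem_span_singleton']
    exact ⟨_, rfl⟩
  · rw [hu, pow_add]
    have : (u : 𝒪) * (↑u⁻¹ : 𝒪) = 1 := u.mul_inv
    linear_combination (-(y * ϖ ^ n * ϖ ^ d)) * this

end DVR

/-! ### the final statement -/

section Final

/-- **Pseudo-character ⇒ `GaloisRepAdic`.** -/
theorem exists_galoisRepAdic {𝒪 : Type} [CommRing 𝒪] [IsDomain 𝒪] [IsDiscreteValuationRing 𝒪]
    (T : (AlgebraicClosure ℚ ≃ₐ[ℚ] AlgebraicClosure ℚ) → 𝒪)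
    (D : (AlgebraicClosure ℚ ≃ₐ[ℚ] AlgebraicClosure ℚ) →* 𝒪ˣ)
    (c₀ : AlgebraicClosure ℚ ≃ₐ[ℚ] AlgebraicClosure ℚ)
    (h2 : (2 : 𝒪) ≠ 0) (hone : T 1 = 2) (hcyc : ∀ g h, T (g * h) = T (h * g))
    (hrel : ∀ g h, T (g * h) + ((D h : 𝒪ˣ) : 𝒪) * T (g * h⁻¹) = T g * T h)
    (hc : c₀ * c₀ = 1) (hD : D c₀ = -1)
    (hcont : ∀ n : ℕ, ∃ L : IntermediateField ℚ (AlgebraicClosure ℚ), FiniteDimensional ℚ L ∧
      ∀ σ : AlgebraicClosure ℚ ≃ₐ[ℚ] AlgebraicClosure ℚ, (∀ x ∈ L, σ x = x) →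
        ∀ g, T (g * σ) - T g ∈ IsLocalRing.maximalIdeal 𝒪 ^ n) :
    ∃ ρ : GaloisRepAdic 𝒪,
      (∀ g, LinearMap.charpoly (ρ.ρ g) = X ^ 2 - C (T g) * X + C ((D g : 𝒪ˣ) : 𝒪)) ∧
      ∀ h, (∀ g, T (g * h) = T g) → ρ.ρ h = 1 := by
  classical
  let E := FractionRing 𝒪
  let TE : (AlgebraicClosure ℚ ≃ₐ[ℚ] AlgebraicClosure ℚ) → E := fun g => algebraMap 𝒪 E (T g)
  let DE : (AlgebraicClosure ℚ ≃ₐ[ℚ] AlgebraicClosure ℚ) →* Eˣ :=
    (Units.map (algebraMap 𝒪 E).toMonoidHom).comp D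
  have hDE : ∀ g, ((DE g : Eˣ) : E) = algebraMap 𝒪 E ((D g : 𝒪ˣ) : 𝒪) := fun g => rfl
  have hP : PS.IsPseudo TE DE := by
    refine ⟨?_, ?_, ?_⟩
    · show algebraMap 𝒪 E (T 1) = 2
      rw [hone, map_ofNat]
    · intro g h
      show algebraMap 𝒪 E (T (g * h)) = algebraMap 𝒪 E (T (h * g))
      rw [hcyc]
    · intro g h
      show algebraMap 𝒪 E (T (g * h)) + ((DE h : Eˣ) : E) * algebraMap 𝒪 E (T (g * h⁻¹))
        = algebraMap 𝒪 E (T g) * algebraMap 𝒪 E (T h)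
      rw [hDE, ← map_mul, ← map_add, hrel, map_mul]
  have h2E : (2 : E) ≠ 0 := by
    intro h0
    apply h2
    apply IsFractionRing.injective 𝒪 E
    rw [map_ofNat, h0, map_zero]
  have hDEc : DE c₀ = -1 := by
    apply Units.ext
    rw [hDE, hD]
    simp
  obtain ⟨ρ, n, w, coef, htr, hdet, hentry⟩ := PS.exists_rep_of_pseudo hP h2E hc hDEc
  have hLin : Lin T ρ n w coef := ⟨hcyc, hentry⟩
  obtain ⟨δ, c', hδ, hc'⟩ := exists_denominator (𝒪 := 𝒪) coef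
  obtain ⟨d, hd⟩ := exists_pow_le_smul 𝒪 hδ
  have hfin : Module.Finite 𝒪 (lat 𝒪 ρ) := hLin.lat_finite
  have hfree : Module.Free 𝒪 (lat 𝒪 ρ) := Module.free_of_finite_type_torsion_free'
  refine ⟨{ V := lat 𝒪 ρ
            finrank_eq := hLin.lat_finrank
            ρ := latRep ρ
            isAdicContinuous := ?_ }, ?_, ?_⟩
  · intro m
    obtain ⟨L, hL, hLσ⟩ := hcont (m + d)
    refine ⟨L, hL, fun σ hσ v => ?_⟩
    exact hLin.latRep_sub_mem hc' hδ _ _ (hd m) (hLσ σ hσ) v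
  · intro g
    exact hLin.latRep_charpoly g (T g) (D g) (htr g) (hdet g)
  · intro h hh
    exact hLin.latRep_eq_one hh

end Final

end Fermat.Agent.S30.LAT
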