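import Mathlib
import Fermat.Agent.S30.Asm
import Fermat.Agent.S30.Lattice

/-!
# C80 (S30), piece ASM, part 2: the piece LAT plugged in

`concl_of_hasTrace` : the conclusion of S30 follows from `HasTrace` (the output of the piece TR)
for the `p`-adic cyclotomic character.
-/

set_option autoImplicit false
set_option linter.unusedSectionVars false
set_option linter.style.haveILetI false

noncomputable section

namespace Fermat.Agent.S30.Asm

open Polynomial CuspForm

/-- the piece LAT (helper6, `S30/Lattice.lean`) in the form used by `concl_of_trace` -/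
theorem latStatement (𝒪' : Type) [CommRing 𝒪'] [IsDomain 𝒪'] [IsDiscreteValuationRing 𝒪']
    [CharZero 𝒪'] : LatStatement 𝒪' := by
  intro Tr D c₀ hc hD h1 hcyc hmul hcont
  exact Fermat.Agent.S30.LAT.exists_galoisRepAdic Tr D c₀ two_ne_zero h1 hcyc hmul hc hD hcont

section

variable (p : ℕ) [hp : Fact p.Prime] (N : ℕ) [NeZero N] (S : Finset ℕ)
  (hpS : p ∈ S)
  (𝒪' : Type) [CommRing 𝒪'] [IsDomain 𝒪'] [IsDiscreteValuationRing 𝒪']
  [IsAdicComplete (IsLocalRing.maximalIdeal 𝒪') 𝒪'] [Finite (IsLocalRing.ResidueField 𝒪')]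
  [CharZero 𝒪'] (hp𝒪' : (p : 𝒪') ∈ IsLocalRing.maximalIdeal 𝒪')
  (χ : CuspForm.heckeAlgebra N 2 (↑S : Set ℕ) →+* 𝒪')

include hpS in
/-- **S30 from the trace function.** -/
theorem concl_of_hasTrace
    (hTr : HasTrace p N S χ (CycAdic.cyc (CycAdic.isPAdic_of_dvr_charZero p 𝒪' hp𝒪'))) :
    Concl p N S 𝒪' χ :=
  concl_of_trace p N S hpS 𝒪' hp𝒪' χ (latStatement 𝒪') hTr

end

end Fermat.Agent.S30.Asm
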