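import Fermat.Agent.S30.Trace
import Fermat.Agent.S29.Rep
import Fermat.Agent.Lib.GalRep.Assemble

/-!
# S30 (C80), piece TR, concrete part 1: the trace function from torsion modules

Input: for every `n` an abelian group `T n` killed by `p ^ n` with an action of `Gal(ℚ̄/ℚ)` with
open stabilisers and commuting "Hecke" endomorphisms `t n ℓ`, satisfying the Eichler–Shimura
relation at Frobenius elements outside `S`, and an eigenvector `x n ∈ R ⊗ T n` with eigenvalues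
`a ℓ` and annihilator `(p ^ n)`. Output (with the Frobenius density theorem): the system of
levels of `S30/Trace.lean`, hence a trace function `Tr : Gal → R`.
-/

set_option autoImplicit false
set_option linter.unusedSectionVars false
set_option linter.style.haveILetI false

noncomputable section

namespace Fermat.Agent.S30.TRB

open TensorProduct Fermat.Agent.S29.Rep Fermat.Agent.S30.TR

local notation "Qb" => AlgebraicClosure ℚ
local notation "Gal" => (AlgebraicClosure ℚ ≃ₐ[ℚ] AlgebraicClosure ℚ)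

/-- the input of the construction of the trace function -/
structure Input (R : Type) [CommRing R] (p : ℕ) (S : Finset ℕ) (a : ℕ → R) where
  /-- the torsion modules -/
  T : ℕ → Type
  [instACG : ∀ n, AddCommGroup (T n)]
  /-- the Galois action -/
  r : ∀ n, Gal →* Module.End ℤ (T n)
  /-- the Hecke operators -/
  t : ∀ n, ℕ → Module.End ℤ (T n)
  /-- the eigenvectors -/
  x : ∀ n, R ⊗[ℤ] T n
  kill : ∀ n (y : T n), (p ^ n) • y = 0
  comm : ∀ n ℓ σ, t n ℓ * r n σ = r n σ * t n ℓ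
  locFin : ∀ n (y : T n), ∃ K : IntermediateField ℚ Qb, FiniteDimensional ℚ K ∧
    ∀ σ : Gal, (∀ z ∈ K, σ z = z) → ∀ τ : Gal, r n σ (r n τ y) = r n τ y
  rel : ∀ n (ℓ : ℕ), ℓ.Prime → ℓ ∉ S → ∀ A : ValuationSubring Qb, A.LiesOverPrime ℓ →
    ∀ σ : Gal, A.IsFrobeniusAt σ ℓ →
      r n σ * r n σ - t n ℓ * r n σ + (ℓ : Module.End ℤ (T n)) = 0
  inert : ∀ n (q : ℕ), q.Prime → q ∉ S → ∀ A : ValuationSubring Qb, A.LiesOverPrime q →
    ∀ σ ∈ A.inertiaSubgroupIn ℚ, r n σ = 1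
  eig : ∀ n (ℓ : ℕ), ℓ.Prime → ℓ ∉ S → (t n ℓ).baseChange R (x n) = a ℓ • x n
  ann : ∀ n (c : R), c • x n = 0 → c ∈ Ideal.span {(p : R) ^ n}

attribute [instance] Input.instACG

/-! ### Lucas sequences -/

section Lucas

variable {R : Type*} [CommRing R]

/-- the Lucas sequence `V_n(t, d)`: `V₀ = 2`, `V₁ = t`, `V_{n+2} = t V_{n+1} - d V_n` -/
def lucasV (t d : R) : ℕ → R
  | 0 => 2
  | 1 => t
  | (n + 2) => t * lucasV t d (n + 1) - d * lucasV t d n

/-- if `x² - t x + d = 0` then `(x^m)² - V_m(t,d) x^m + d^m = 0` -/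
theorem quadratic_pow_lucas {A : Type*} [Ring A] [Algebra R A] {x : A} {t d : R}
    (h : x * x - t • x + d • (1 : A) = 0) (m : ℕ) :
    x ^ m * x ^ m - lucasV t d m • x ^ m + (d ^ m) • (1 : A) = 0 := by
  set y : A := t • (1 : A) - x with hy
  have hxy : x * y = d • (1 : A) := by
    rw [hy, mul_sub, mul_smul_comm, mul_one]
    have h' : x * x = t • x - d • (1 : A) := by
      rw [← sub_eq_zero, ← h]
      abel
    rw [h']
    abel
  have hcomm : Commute x y := by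
    rw [hy]
    exact ((Commute.one_right x).smul_right t).sub_right (Commute.refl x)
  have hsum : ∀ n : ℕ, x ^ n + y ^ n = lucasV t d n • (1 : A) := by
    intro n
    induction n using Nat.strong_induction_on with
    | _ n ih =>
      match n, ih with
      | 0, _ => rw [pow_zero, pow_zero, lucasV, two_smul]
      | 1, _ => rw [pow_one, pow_one, lucasV, hy]; abel
      | n + 2, ih =>
        have hs₁ := ih (n + 1) (by omega)
        have hs₀ := ih n (by omega)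
        have h1 : x ^ (n + 2) + y ^ (n + 2)
            = (x + y) * (x ^ (n + 1) + y ^ (n + 1)) - (x * y) * (x ^ n + y ^ n) := by
          have e1 : x * y ^ (n + 1) = (x * y) * y ^ n := by rw [pow_succ', mul_assoc]
          have e2 : y * x ^ (n + 1) = (x * y) * x ^ n := by
            rw [pow_succ', ← mul_assoc, hcomm.eq]
          rw [add_mul, mul_add, mul_add, e1, e2, mul_add, ← pow_succ', ← pow_succ']
          abel
        have h2 : x + y = t • (1 : A) := by rw [hy]; abel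
        rw [h1, h2, hs₁, hs₀, hxy, smul_mul_assoc, one_mul, smul_mul_assoc, one_mul, smul_smul,
          smul_smul, ← sub_smul, lucasV]
  have h3 : x ^ m * y ^ m = (d ^ m) • (1 : A) := by
    rw [← hcomm.mul_pow, hxy, _root_.smul_pow, one_pow]
  have h4 : lucasV t d m • x ^ m = x ^ m * (x ^ m + y ^ m) := by
    rw [hsum, mul_smul_comm, mul_one]
  rw [h4, mul_add, h3]
  abel

end Lucas

/-! ### existence of the trace from a limit property -/

section Limit

variable {G : Type} [Group G] {R : Type} [CommRing R] {D : G →* Rˣ} {I : ℕ → Ideal R}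

theorem exists_trace_of_lim (Sy : LevelSys G R D I)
    (hlim : ∀ a : ℕ → R, (∀ n, a (n + 1) - a n ∈ I n) → ∃ d : R, ∀ n, d - a n ∈ I n) :
    ∃ Tr : G → R, ∀ n g, (Sy.L n).Valid D g (Tr g) := by
  have key : ∀ g : G, ∃ T : R, ∀ n, (Sy.L n).Valid D g T := by
    intro g
    choose t ht using fun n => Sy.ex n g
    obtain ⟨d, hd⟩ := hlim t fun n =>
      (ht (n + 1) n (Nat.le_succ n)).unique (ht n n le_rfl)
    exact ⟨d, fun n => (ht n n le_rfl).congr (hd n)⟩
  choose Tr hTr using key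
  exact ⟨Tr, fun n g => hTr g n⟩

end Limit

/-! ### one level: the trace of a power of a Frobenius element -/

section OneLevel

variable {k₀ : Type} [CommRing k₀] {W : Type} [AddCommGroup W] [Module k₀ W]
variable {G : Gal →* Module.End k₀ W} {w : W}

theorem orbitRep_eq_one_of_fixes {K : IntermediateField ℚ Qb}
    (hK : ∀ σ : Gal, (∀ z ∈ K, σ z = z) → ∀ τ : Gal, G σ (G τ w) = G τ w)
    (σ : Gal) (hσ : ∀ z ∈ K, σ z = z) : orbitRep G w σ = 1 := by
  ext u
  rw [coe_orbitRep]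
  exact eq_of_mem_orbitSpan (f := G σ) (g := 1) (fun τ => hK σ hσ τ) u.2

theorem valid_of_frob_pow {K : IntermediateField ℚ Qb}
    (hK : ∀ σ : Gal, (∀ z ∈ K, σ z = z) → ∀ τ : Gal, G σ (G τ w) = G τ w)
    (t' : Module.End k₀ W) (hcomm : ∀ σ : Gal, t' * G σ = G σ * t') {a : k₀}
    (hw : t' w = a • w) (σ' : Gal) (c : k₀)
    (hrel : G σ' * G σ' - t' * G σ' + c • (1 : Module.End k₀ W) = 0)
    (g : Gal) (e : ℕ) (hagree : ∀ z ∈ K, g z = (σ' ^ e) z) (d : k₀)
    (hd : ∀ u ∈ orbitSpan G w, (d - c ^ e) • u = 0) :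
    ∀ u ∈ orbitSpan G w, G g (G g u) - lucasV a c e • G g u + d • u = 0 := by
  intro u hu
  have h1 := quadratic_on_orbitSpan t' hcomm hw σ' c hrel
  have h2 := quadratic_pow_lucas h1 e
  have h3 : orbitRep G w g = orbitRep G w σ' ^ e := by
    rw [← map_pow]
    exact Fermat.Agent.Lib.GalRep.eq_of_agree (orbitRep G w)
      (fun σ hσ => orbitRep_eq_one_of_fixes hK σ hσ) hagree
  rw [← h3] at h2
  have h4 := congrArg (fun f : Module.End k₀ (orbitSpan G w) =>
    ((f ⟨u, hu⟩ : orbitSpan G w) : W)) h2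
  simp only [LinearMap.add_apply, LinearMap.sub_apply, LinearMap.smul_apply,
    Module.End.mul_apply, Module.End.one_apply, LinearMap.zero_apply, Submodule.coe_add,
    Submodule.coe_sub, Submodule.coe_smul, Submodule.coe_zero, coe_orbitRep] at h4
  have h5 := hd u hu
  rw [sub_smul, sub_eq_zero] at h5
  rw [h5]
  exact h4

end OneLevel

/-! ### the system of levels -/

section Build

variable {R : Type} [CommRing R] {p : ℕ} {S : Finset ℕ} {a : ℕ → R} (X : Input R p S a)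

theorem kill_tensor (n : ℕ) (c : R) (hc : c ∈ Ideal.span {(p : R) ^ n}) (w : R ⊗[ℤ] X.T n) :
    c • w = 0 := by
  obtain ⟨b, rfl⟩ := Ideal.mem_span_singleton'.1 hc
  induction w using TensorProduct.induction_on with
  | zero => rw [smul_zero]
  | tmul s y =>
    rw [TensorProduct.smul_tmul', smul_eq_mul, mul_assoc, ← Nat.cast_pow, mul_comm _ s,
      ← mul_assoc, ← nsmul_eq_mul', TensorProduct.smul_tmul,
      X.kill n y, TensorProduct.tmul_zero]
  | add w₁ w₂ h₁ h₂ => rw [smul_add, h₁, h₂, add_zero]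

/-- the level `n` -/
def level (n : ℕ) : Level Gal R (Ideal.span {(p : R) ^ n}) where
  M := BC ℤ R (X.T n)
  act := bcRep R (X.r n)
  x := X.x n
  ann := X.ann n
  kill := kill_tensor X n

theorem level_W (n : ℕ) : (level X n).W = orbitSpan (bcRep R (X.r n)) (X.x n : BC ℤ R (X.T n)) :=
  rfl

/-- a common finite level for the orbits of the `x m`, `m ≤ n` -/
theorem exists_common_level (n : ℕ) :
    ∃ K : IntermediateField ℚ Qb, FiniteDimensional ℚ K ∧
      ∀ m ≤ n, ∀ σ : Gal, (∀ z ∈ K, σ z = z) → ∀ τ : Gal,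
        bcRep R (X.r m) σ (bcRep R (X.r m) τ (X.x m : BC ℤ R (X.T m)))
          = bcRep R (X.r m) τ (X.x m : BC ℤ R (X.T m)) := by
  induction n with
  | zero =>
    obtain ⟨K, hK, h⟩ := orbitFixed_bcRep (k₀ := R) (X.r 0) (X.locFin 0) (X.x 0)
    exact ⟨K, hK, fun m hm => by
      obtain rfl : m = 0 := Nat.le_zero.1 hm
      exact h⟩
  | succ n ih =>
    obtain ⟨K₁, hK₁, h₁⟩ := ih
    obtain ⟨K₂, hK₂, h₂⟩ := orbitFixed_bcRep (k₀ := R) (X.r (n + 1)) (X.locFin (n + 1))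
      (X.x (n + 1))
    haveI := hK₁
    haveI := hK₂
    refine ⟨K₁ ⊔ K₂, IntermediateField.finiteDimensional_sup K₁ K₂, fun m hm σ hσ τ => ?_⟩
    rcases Nat.lt_or_ge m (n + 1) with h | h
    · exact h₁ m (Nat.lt_succ_iff.1 h) σ
        (fun z hz => hσ z ((le_sup_left : K₁ ≤ K₁ ⊔ K₂) hz)) τ
    · obtain rfl : m = n + 1 := le_antisymm hm h
      exact h₂ σ (fun z hz => hσ z ((le_sup_right : K₂ ≤ K₁ ⊔ K₂) hz)) τ

variable (D : Gal →* Rˣ)
  (hDfrob : ∀ (ℓ : ℕ), ℓ.Prime → ℓ ∉ S → ∀ A : ValuationSubring Qb, A.LiesOverPrime ℓ →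
    ∀ σ : Gal, A.IsFrobeniusAt σ ℓ → ((D σ : Rˣ) : R) = (ℓ : R))
  (hDlev : ∀ n : ℕ, ∃ L : IntermediateField ℚ Qb, FiniteDimensional ℚ L ∧
    ∀ σ : Gal, (∀ z ∈ L, σ z = z) → ((D σ : Rˣ) : R) - 1 ∈ Ideal.span {(p : R) ^ n})

include hDfrob in
/-- validity at a Frobenius element -/
theorem valid_frob (n : ℕ) {ℓ : ℕ} (hℓ : ℓ.Prime) (hℓS : ℓ ∉ S) (A : ValuationSubring Qb)
    (hA : A.LiesOverPrime ℓ) (σ : Gal) (hσ : A.IsFrobeniusAt σ ℓ) :
    (level X n).Valid D σ (a ℓ) := by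
  obtain ⟨K, -, hK⟩ := exists_common_level X n
  have hrel := congrArg (bcEnd ℤ R (X.T n)) (X.rel n ℓ hℓ hℓS A hA σ hσ)
  rw [map_add, map_sub, map_mul, map_mul, map_natCast, map_zero, natCast_end_eq_smul_one] at hrel
  have h := valid_of_frob_pow (G := bcRep R (X.r n)) (w := (X.x n : BC ℤ R (X.T n)))
    (hK n le_rfl) (bcEnd ℤ R (X.T n) (X.t n ℓ))
    (fun τ => by rw [bcRep_apply, ← map_mul, ← map_mul, X.comm]) (X.eig n ℓ hℓ hℓS) σ (ℓ : R)
    hrel σ 1 (fun z _ => by rw [pow_one]) ((D σ : Rˣ) : R)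
    (fun u _ => by rw [hDfrob ℓ hℓ hℓS A hA σ hσ, pow_one, sub_self, zero_smul])
  intro u hu
  have := h u hu
  rwa [lucasV] at this

include hDfrob hDlev in
/-- every element has a trace which is valid at all lower levels -/
theorem exists_valid (hFG : Fermat.Agent.Lib.GalRep.FrobeniusGenerates) (n : ℕ) (g : Gal) :
    ∃ t : R, ∀ m ≤ n, (level X m).Valid D g t := by
  obtain ⟨K₁, hK₁f, hK₁⟩ := exists_common_level X n
  obtain ⟨K₂, hK₂f, hK₂⟩ := hDlev n
  haveI := hK₁f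
  haveI := hK₂f
  obtain ⟨ℓ, A, σ', e, hℓ, hℓS, hA, hσ', hagree⟩ :=
    hFG (K₁ ⊔ K₂) (IntermediateField.finiteDimensional_sup K₁ K₂) S g
  refine ⟨lucasV (a ℓ) (ℓ : R) e, fun m hm => ?_⟩
  have hrel := congrArg (bcEnd ℤ R (X.T m)) (X.rel m ℓ hℓ hℓS A hA σ' hσ')
  rw [map_add, map_sub, map_mul, map_mul, map_natCast, map_zero, natCast_end_eq_smul_one] at hrel
  -- the character
  have hτ : ∀ z ∈ K₂, ((σ' ^ e)⁻¹ * g) z = z := fun z hz => by
    show (σ' ^ e)⁻¹ (g z) = z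
    rw [hagree z ((le_sup_right : K₂ ≤ K₁ ⊔ K₂) hz)]
    exact (σ' ^ e).symm_apply_apply z
  have hD1 := hK₂ _ hτ
  have hD2 : ((D g : Rˣ) : R) - (ℓ : R) ^ e ∈ Ideal.span {(p : R) ^ m} := by
    have e1 : ((D g : Rˣ) : R) = (ℓ : R) ^ e * ((D ((σ' ^ e)⁻¹ * g) : Rˣ) : R) := by
      rw [← hDfrob ℓ hℓ hℓS A hA σ' hσ', ← Units.val_pow_eq_pow_val, ← map_pow, ← Units.val_mul,
        ← map_mul, mul_inv_cancel_left]
    have e2 : ((D g : Rˣ) : R) - (ℓ : R) ^ e
        = (ℓ : R) ^ e * (((D ((σ' ^ e)⁻¹ * g) : Rˣ) : R) - 1) := by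
      rw [mul_sub, mul_one, ← e1]
    rw [e2]
    refine Ideal.mul_mem_left _ _ ?_
    exact (Ideal.span_singleton_le_span_singleton.2 (pow_dvd_pow (p : R) hm)) hD1
  exact valid_of_frob_pow (G := bcRep R (X.r m)) (w := (X.x m : BC ℤ R (X.T m)))
    (hK₁ m hm) (bcEnd ℤ R (X.T m) (X.t m ℓ))
    (fun τ => by rw [bcRep_apply, ← map_mul, ← map_mul, X.comm]) (X.eig m ℓ hℓ hℓS) σ' (ℓ : R)
    hrel g e (fun z hz => hagree z ((le_sup_left : K₁ ≤ K₁ ⊔ K₂) hz)) ((D g : Rˣ) : R)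
    (fun u _ => kill_tensor X m _ hD2 u)

/-- the system of levels -/
def sys (hFG : Fermat.Agent.Lib.GalRep.FrobeniusGenerates) :
    LevelSys Gal R D (fun n => Ideal.span {(p : R) ^ n}) where
  L := level X
  ex := exists_valid X D hDfrob hDlev hFG

include X hDfrob hDlev in
/-- **The trace function.** -/
theorem exists_trace_of_input (hFG : Fermat.Agent.Lib.GalRep.FrobeniusGenerates)
    (hlim : ∀ b : ℕ → R, (∀ n, b (n + 1) - b n ∈ Ideal.span {(p : R) ^ n}) →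
      ∃ d : R, ∀ n, d - b n ∈ Ideal.span {(p : R) ^ n})
    (hsep : ∀ b : R, (∀ n, b ∈ Ideal.span {(p : R) ^ n}) → b = 0) :
    ∃ Tr : Gal → R,
      Tr 1 = 2 ∧ (∀ g h, Tr (g * h) = Tr (h * g)) ∧
      (∀ g h, Tr (g * h) + ((D h : Rˣ) : R) * Tr (g * h⁻¹) = Tr g * Tr h) ∧
      (∀ (ℓ : ℕ), ℓ.Prime → ℓ ∉ S → ∀ A : ValuationSubring Qb, A.LiesOverPrime ℓ →
        ∀ σ : Gal, A.IsFrobeniusAt σ ℓ → Tr σ = a ℓ) ∧
      (∀ σ : Gal, (∀ n, X.r n σ = 1) → D σ = 1 → ∀ g, Tr (g * σ) = Tr g) ∧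
      (∀ n : ℕ, ∃ L : IntermediateField ℚ Qb, FiniteDimensional ℚ L ∧
        ∀ σ : Gal, (∀ z ∈ L, σ z = z) → ∀ g, Tr (g * σ) - Tr g ∈ Ideal.span {(p : R) ^ n}) := by
  obtain ⟨Tr, hTr⟩ := exists_trace_of_lim (sys X D hDfrob hDlev hFG) hlim
  refine ⟨Tr, LevelSys.tr_one hTr hsep, LevelSys.tr_comm hTr hsep, LevelSys.tr_mul hTr hsep,
    ?_, ?_, ?_⟩
  · intro ℓ hℓ hℓS A hA σ hσ
    exact LevelSys.tr_eq_of_valid hTr hsep fun n => valid_frob X D hDfrob n hℓ hℓS A hA σ hσ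
  · intro σ hσ hDσ g
    refine LevelSys.tr_mul_of_trivial hTr hsep g (fun n w _ => ?_) hDσ
    show bcRep R (X.r n) σ w = w
    rw [bcRep_apply, hσ n, map_one]
    rfl
  · intro n
    obtain ⟨K₁, hK₁f, hK₁⟩ := exists_common_level X n
    obtain ⟨K₂, hK₂f, hK₂⟩ := hDlev n
    haveI := hK₁f
    haveI := hK₂f
    refine ⟨K₁ ⊔ K₂, IntermediateField.finiteDimensional_sup K₁ K₂, fun σ hσ g => ?_⟩
    refine LevelSys.tr_mul_sub_mem hTr g (fun w hw => ?_)
      (hK₂ σ fun z hz => hσ z ((le_sup_right : K₂ ≤ K₁ ⊔ K₂) hz))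
    exact eq_of_mem_orbitSpan (G := bcRep R (X.r n)) (f := bcRep R (X.r n) σ) (g := 1)
      (fun τ => hK₁ n le_rfl σ (fun z hz => hσ z ((le_sup_left : K₁ ≤ K₁ ⊔ K₂) hz)) τ) hw

end Build

end Fermat.Agent.S30.TRB
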