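import Mathlib
import Fermat.Agent.S30.AsmLat
import Fermat.Agent.S30.TraceBuild
import Fermat.Agent.Lib.FrobDensity.Generates

/-!
# C80 (S30), piece ASM, part 3: the piece TR plugged in

`HasInput p N S χ` : the output of the piece TR-INPUT (torsion modules with Galois and Hecke action,
eigenvectors for `χ`, inertia outside `Np` acting trivially).
`concl_of_hasInput` : `HasInput` ⇒ the conclusion of S30.
-/

set_option autoImplicit false
set_option linter.unusedSectionVars false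
set_option linter.style.haveILetI false

noncomputable section

namespace Fermat.Agent.S30.Asm

open Polynomial CuspForm

local notation "Qb" => AlgebraicClosure ℚ
local notation "Gal" => (AlgebraicClosure ℚ ≃ₐ[ℚ] AlgebraicClosure ℚ)

/-- the output of the piece TR-INPUT -/
def HasInput (p : ℕ) (N : ℕ) [NeZero N] (S : Finset ℕ) {𝒪' : Type} [CommRing 𝒪']
    (χ : CuspForm.heckeAlgebra N 2 (↑S : Set ℕ) →+* 𝒪') : Prop :=
  ∃ a : ℕ → 𝒪',
    (∀ (ℓ : ℕ) (hℓ : ℓ.Prime) (hℓN : ¬ ℓ ∣ N) (hℓS : ℓ ∉ (↑S : Set ℕ)),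
      a ℓ = χ (CuspForm.heckeAlgebra.T hℓ hℓN hℓS)) ∧
    ∃ X : Fermat.Agent.S30.TRB.Input 𝒪' p S a,
      ∀ q : ℕ, q.Prime → ¬ q ∣ N → q ≠ p → ∀ A : ValuationSubring Qb, A.LiesOverPrime q →
        ∀ σ ∈ A.inertiaSubgroupIn ℚ, ∀ n, X.r n σ = 1

section

variable (p : ℕ) [hp : Fact p.Prime] (N : ℕ) [NeZero N] (S : Finset ℕ)
  (hpS : p ∈ S)
  (𝒪' : Type) [CommRing 𝒪'] [IsDomain 𝒪'] [IsDiscreteValuationRing 𝒪']
  [IsAdicComplete (IsLocalRing.maximalIdeal 𝒪') 𝒪'] [Finite (IsLocalRing.ResidueField 𝒪')]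
  [CharZero 𝒪'] (hp𝒪' : (p : 𝒪') ∈ IsLocalRing.maximalIdeal 𝒪')
  (χ : CuspForm.heckeAlgebra N 2 (↑S : Set ℕ) →+* 𝒪')

include hpS in
/-- the piece TR: the trace function from the input -/
theorem hasTrace_of_hasInput (hX : HasInput p N S χ) :
    HasTrace p N S χ (CycAdic.cyc (CycAdic.isPAdic_of_dvr_charZero p 𝒪' hp𝒪')) := by
  obtain ⟨a, ha, X, hin⟩ := hX
  have hR := CycAdic.isPAdic_of_dvr_charZero p 𝒪' hp𝒪'
  have hne : ∀ ℓ : ℕ, ℓ ∉ S → ℓ ≠ p := by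
    rintro ℓ hℓS rfl
    exact hℓS hpS
  obtain ⟨Tr, h1, hcomm, hmul, hfrob, htriv, hcont⟩ :=
    Fermat.Agent.S30.TRB.exists_trace_of_input X (CycAdic.cyc hR)
      (fun ℓ hℓ hℓS A hA σ hσ => by
        haveI : Fact ℓ.Prime := ⟨hℓ⟩
        exact CycAdic.cyc_frobenius hR A ℓ hA (hne ℓ hℓS) σ hσ)
      (fun n => CycAdic.cyc_level hR n)
      Fermat.Agent.Lib.FrobDensity.frobeniusGenerates hR.lim hR.sep
  refine ⟨Tr, h1, hcomm, hmul, ?_, ?_, hcont⟩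
  · intro ℓ hℓ hℓN hℓS A hA σ hσ
    rw [hfrob ℓ hℓ (fun h => hℓS (Finset.mem_coe.2 h)) A hA σ hσ, ha ℓ hℓ hℓN hℓS]
  · intro q hq hqN hqp A hA h hh g
    haveI : Fact q.Prime := ⟨hq⟩
    exact htriv h (hin q hq hqN hqp A hA h hh) (CycAdic.cyc_inertia hR A q hA hqp h hh) g

include hpS hp𝒪' in
/-- **S30 from the input of the trace construction.** -/
theorem concl_of_hasInput (hX : HasInput p N S χ) : Concl p N S 𝒪' χ :=
  concl_of_hasTrace p N S hpS 𝒪' hp𝒪' χ (hasTrace_of_hasInput p N S hpS 𝒪' hp𝒪' χ hX)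

end

end Fermat.Agent.S30.Asm
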