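import Mathlib

/-!
# Campaign 80 (S30), piece ANN: the annihilator of the image of a primitive vector

`O` a domain of characteristic zero, `Λ` a finitely generated free `ℤ`-module, `Θ : Λ →+ T` with
`ker Θ ⊆ m Λ`.  If `v ∈ O ⊗ Λ` is primitive (some `O`-linear functional takes the value `1` on it)
and `a • (id ⊗ Θ) v = 0`, then `m ∣ a`.
-/

set_option autoImplicit false
set_option linter.unusedSectionVars false

open TensorProduct

namespace Fermat.Agent.S30.TRA

variable {O : Type*} [CommRing O] [IsDomain O] [CharZero O]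

/-- a domain of characteristic zero is flat over `ℤ`. -/
theorem flat_int : Module.Flat ℤ O := by
  haveI : Module.IsTorsionFree ℤ O := inferInstance
  infer_instance

variable {Λ T : Type*} [AddCommGroup Λ] [AddCommGroup T]

/-- the image of `O ⊗ ker Θ` in `O ⊗ Λ` consists of multiples of `m` when `ker Θ ⊆ m Λ`. -/
theorem lTensor_ker_mem (m : ℕ) (Θ : Λ →ₗ[ℤ] T) (hker : ∀ c, Θ c = 0 → ∃ c', c = m • c')
    (w : O ⊗[ℤ] (LinearMap.ker Θ)) :
    ∃ u : O ⊗[ℤ] Λ, (LinearMap.ker Θ).subtype.lTensor O w = m • u := by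
  induction w using TensorProduct.induction_on with
  | zero => exact ⟨0, by simp⟩
  | tmul e c =>
      obtain ⟨c', hc'⟩ := hker c.1 c.2
      refine ⟨e ⊗ₜ[ℤ] c', ?_⟩
      rw [LinearMap.lTensor_tmul, Submodule.subtype_apply, hc', TensorProduct.tmul_smul]
  | add x y hx hy =>
      obtain ⟨u₁, h₁⟩ := hx
      obtain ⟨u₂, h₂⟩ := hy
      exact ⟨u₁ + u₂, by rw [map_add, h₁, h₂, smul_add]⟩

/-- the kernel of `id ⊗ Θ` consists of multiples of `m` when `ker Θ ⊆ m Λ`. -/
theorem exists_eq_smul_of_baseChange_eq_zero (m : ℕ) (Θ : Λ →ₗ[ℤ] T)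
    (hker : ∀ c, Θ c = 0 → ∃ c', c = m • c') (x : O ⊗[ℤ] Λ) (hx : Θ.baseChange O x = 0) :
    ∃ u : O ⊗[ℤ] Λ, x = m • u := by
  haveI : Module.Flat ℤ O := flat_int
  have hex : Function.Exact (LinearMap.ker Θ).subtype Θ := LinearMap.exact_subtype_ker_map Θ
  have hex' := Module.Flat.lTensor_exact O hex
  have hx' : Θ.lTensor O x = 0 := hx
  obtain ⟨w, hw⟩ := (hex' x).mp hx'
  obtain ⟨u, hu⟩ := lTensor_ker_mem (O := O) m Θ hker w
  exact ⟨u, by rw [← hw, hu]⟩

/-- **ANN**: the annihilator of the image of a primitive vector under `id ⊗ Θ`, `ker Θ ⊆ mΛ`. -/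
theorem ann_of_primitive (m : ℕ) (Θ : Λ →+ T) (hker : ∀ c, Θ c = 0 → ∃ c', c = m • c')
    (v : O ⊗[ℤ] Λ) (hprim : ∃ φ : O ⊗[ℤ] Λ →ₗ[O] O, φ v = 1)
    (a : O) (ha : a • (Θ.toIntLinearMap.baseChange O) v = 0) :
    a ∈ Ideal.span {(m : O)} := by
  obtain ⟨φ, hφ⟩ := hprim
  have h1 : Θ.toIntLinearMap.baseChange O (a • v) = 0 := by rw [map_smul, ha]
  obtain ⟨u, hu⟩ := exists_eq_smul_of_baseChange_eq_zero (O := O) m Θ.toIntLinearMap hker
    (a • v) h1
  have h2 : a = (m : O) * φ u := by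
    have := congrArg φ hu
    rw [map_smul, hφ, smul_eq_mul, mul_one, map_nsmul, nsmul_eq_mul] at this
    exact this
  rw [Ideal.mem_span_singleton]
  exact ⟨φ u, h2⟩

/-- the converse: multiples of `m` kill the image when `m • Θ = 0`. -/
theorem smul_baseChange_eq_zero (m : ℕ) (Θ : Λ →+ T) (hm : ∀ c, m • Θ c = 0)
    (v : O ⊗[ℤ] Λ) (a : O) (ha : a ∈ Ideal.span {(m : O)}) :
    a • (Θ.toIntLinearMap.baseChange O) v = 0 := by
  rw [Ideal.mem_span_singleton] at ha
  obtain ⟨b, rfl⟩ := ha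
  have key : ∀ x : O ⊗[ℤ] Λ, (m : O) • (Θ.toIntLinearMap.baseChange O) x = 0 := by
    intro x
    induction x using TensorProduct.induction_on with
    | zero => simp
    | tmul e c =>
        rw [LinearMap.baseChange_tmul, TensorProduct.smul_tmul']
        have h1 : (m : O) • e = (m : ℤ) • e := by
          rw [smul_eq_mul, zsmul_eq_mul]
          push_cast
          rfl
        rw [h1, TensorProduct.smul_tmul]
        have h2 : (m : ℤ) • Θ.toIntLinearMap c = 0 := by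
          rw [natCast_zsmul]
          exact hm c
        rw [h2, TensorProduct.tmul_zero]
    | add x y hx hy => rw [map_add, smul_add, hx, hy, add_zero]
  rw [mul_comm, mul_smul, key, smul_zero]

/-- **ANN**, both directions: for a primitive `v`, `a` kills `(id ⊗ Θ) v` iff `m ∣ a`. -/
theorem smul_eq_zero_iff (m : ℕ) (Θ : Λ →+ T) (hm : ∀ c, m • Θ c = 0)
    (hker : ∀ c, Θ c = 0 → ∃ c', c = m • c')
    (v : O ⊗[ℤ] Λ) (hprim : ∃ φ : O ⊗[ℤ] Λ →ₗ[O] O, φ v = 1) (a : O) :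
    a • (Θ.toIntLinearMap.baseChange O) v = 0 ↔ a ∈ Ideal.span {(m : O)} :=
  ⟨ann_of_primitive m Θ hker v hprim a, smul_baseChange_eq_zero m Θ hm v a⟩

end Fermat.Agent.S30.TRA
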