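import Mathlib
import Fermat.Agent.S30.TraceBuild
import Fermat.Agent.S30.TraceAnn
import Fermat.Agent.S29.ThetaJ
import Fermat.Agent.S31.LatEigT

/-!
# S30 (C80), piece TR-INPUT, abstract part

From an abelian group `J` with an action of `Gal(ℚ̄/ℚ)`, commuting endomorphisms `h ℓ`, the
Eichler–Shimura relation and triviality of inertia on the `p`-power torsion, torsion classes
`Θ_n : Λ → J[p ^ n]` with kernel `p ^ n Λ`, and a primitive eigenvector `v ∈ R ⊗ Λ`, we build the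
input of the construction of the trace function (`S30/TraceBuild.lean`).
-/

set_option autoImplicit false
set_option linter.unusedSectionVars false
set_option linter.unusedVariables false
set_option linter.style.haveILetI false

noncomputable section

namespace Fermat.Agent.S30.TRI

open TensorProduct Fermat.Agent.S30.TRB

local notation "Qb" => AlgebraicClosure ℚ
local notation "Gal" => (AlgebraicClosure ℚ ≃ₐ[ℚ] AlgebraicClosure ℚ)

section Abstract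

variable (J : Type) [AddCommGroup J] (p : ℕ)

/-- the `p ^ n`-torsion of `J` -/
def tors (n : ℕ) : Submodule ℤ J where
  carrier := {x | p ^ n • x = 0}
  zero_mem' := smul_zero _
  add_mem' := fun {x y} hx hy => by
    show p ^ n • (x + y) = 0
    rw [smul_add, show p ^ n • x = 0 from hx, show p ^ n • y = 0 from hy, add_zero]
  smul_mem' := fun c x hx => by
    show p ^ n • (c • x) = 0
    rw [smul_comm, show p ^ n • x = 0 from hx, smul_zero]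

variable {J p}

theorem mem_tors {n : ℕ} {x : J} : x ∈ tors J p n ↔ p ^ n • x = 0 := Iff.rfl

theorem tors_kill {n : ℕ} (y : tors J p n) : p ^ n • y = 0 :=
  Subtype.ext (by
    rw [Submodule.coe_smul_of_tower]
    exact y.2)

theorem tors_torsion {n : ℕ} (y : tors J p n) : ∃ k : ℕ, p ^ k • (y : J) = 0 := ⟨n, y.2⟩

theorem map_mem_tors (f : Module.End ℤ J) {n : ℕ} {x : J} (hx : x ∈ tors J p n) :
    f x ∈ tors J p n := by
  show p ^ n • f x = 0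
  rw [← map_nsmul, show p ^ n • x = 0 from hx, map_zero]

variable (p) in
/-- restriction of an endomorphism to the torsion -/
def resEnd (n : ℕ) (f : Module.End ℤ J) : Module.End ℤ (tors J p n) :=
  f.restrict fun _ hx => map_mem_tors f hx

theorem coe_resEnd (n : ℕ) (f : Module.End ℤ J) (y : tors J p n) :
    ((resEnd p n f y : tors J p n) : J) = f y := rfl

theorem resEnd_mul (n : ℕ) (f g : Module.End ℤ J) :
    resEnd p n (f * g) = resEnd p n f * resEnd p n g := rfl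

theorem resEnd_one (n : ℕ) : resEnd p n (1 : Module.End ℤ J) = 1 := rfl

theorem resEnd_zero (n : ℕ) : resEnd p n (0 : Module.End ℤ J) = 0 := rfl

variable [DistribMulAction Gal J]

variable (J p) in
/-- the Galois action on the torsion -/
def galTors (n : ℕ) : Gal →* Module.End ℤ (tors J p n) where
  toFun σ := resEnd p n (DistribSMul.toLinearMap ℤ J σ)
  map_one' := by
    refine LinearMap.ext fun y => Subtype.ext ?_
    show (1 : Gal) • (y : J) = y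
    rw [one_smul]
  map_mul' σ τ := by
    refine LinearMap.ext fun y => Subtype.ext ?_
    show (σ * τ) • (y : J) = σ • τ • (y : J)
    rw [mul_smul]

theorem coe_galTors (n : ℕ) (σ : Gal) (y : tors J p n) :
    ((galTors J p n σ y : tors J p n) : J) = σ • (y : J) := rfl

/-- the torsion classes with values in the torsion -/
def thetaTors (n : ℕ) {Λ : Type} [AddCommGroup Λ] (Θ : Λ →+ J) (hΘ : ∀ c, p ^ n • Θ c = 0) :
    Λ →+ tors J p n :=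
  Θ.codRestrict (tors J p n).toAddSubgroup fun c => hΘ c

theorem coe_thetaTors (n : ℕ) {Λ : Type} [AddCommGroup Λ] (Θ : Λ →+ J)
    (hΘ : ∀ c, p ^ n • Θ c = 0) (c : Λ) : ((thetaTors n Θ hΘ c : tors J p n) : J) = Θ c := rfl

/-- base change of a composition, applied to a vector -/
theorem baseChange_comm {R : Type} [CommRing R] {Λ T : Type} [AddCommGroup Λ] [AddCommGroup T]
    (θ : Λ →ₗ[ℤ] T) (f : Module.End ℤ Λ) (g : Module.End ℤ T) (h : ∀ c, θ (f c) = g (θ c))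
    (v : R ⊗[ℤ] Λ) : g.baseChange R (θ.baseChange R v) = θ.baseChange R (f.baseChange R v) := by
  induction v using TensorProduct.induction_on with
  | zero => rw [map_zero, map_zero, map_zero, map_zero]
  | tmul e c =>
    rw [LinearMap.baseChange_tmul, LinearMap.baseChange_tmul, LinearMap.baseChange_tmul,
      LinearMap.baseChange_tmul, h]
  | add x y hx hy => rw [map_add, map_add, map_add, map_add, hx, hy]

/-- **TR-INPUT, abstract form** -/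
theorem exists_input_abstract {R : Type} [CommRing R] [IsDomain R] [CharZero R]
    (S : Finset ℕ) (a : ℕ → R) (h : ℕ → Module.End ℤ J)
    (hcomm : ∀ (ℓ : ℕ) (σ : Gal) (y : J), h ℓ (σ • y) = σ • h ℓ y)
    (hloc : ∀ y : J, ∃ K : IntermediateField ℚ Qb, FiniteDimensional ℚ K ∧
      ∀ σ : Gal, (∀ z ∈ K, σ z = z) → ∀ τ : Gal, σ • τ • y = τ • y)
    (hrel : ∀ ℓ : ℕ, ℓ.Prime → ℓ ∉ S → ∀ A : ValuationSubring Qb, A.LiesOverPrime ℓ →
      ∀ σ : Gal, A.IsFrobeniusAt σ ℓ → ∀ y : J, (∃ n : ℕ, p ^ n • y = 0) →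
        σ • σ • y - h ℓ (σ • y) + (ℓ : ℤ) • y = 0)
    (P : ℕ → Prop) (hPS : ∀ q : ℕ, q.Prime → q ∉ S → P q)
    (hin : ∀ q : ℕ, q.Prime → P q → ∀ A : ValuationSubring Qb, A.LiesOverPrime q →
      ∀ σ ∈ A.inertiaSubgroupIn ℚ, ∀ y : J, (∃ n : ℕ, p ^ n • y = 0) → σ • y = y)
    {Λ : Type} [AddCommGroup Λ] (T : ℕ → Module.End ℤ Λ)
    (hΘ : ∀ n : ℕ, ∃ Θ : Λ →+ J, (∀ c, p ^ n • Θ c = 0) ∧
      (∀ c, Θ c = 0 → ∃ c', c = p ^ n • c') ∧
      ∀ ℓ : ℕ, ℓ.Prime → ℓ ∉ S → ∀ c, Θ (T ℓ c) = h ℓ (Θ c))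
    (v : R ⊗[ℤ] Λ) (hprim : ∃ φ : R ⊗[ℤ] Λ →ₗ[R] R, φ v = 1)
    (hv : ∀ ℓ : ℕ, ℓ.Prime → ℓ ∉ S → (T ℓ).baseChange R v = a ℓ • v) :
    ∃ X : Input R p S a, ∀ q : ℕ, q.Prime → P q → ∀ A : ValuationSubring Qb,
      A.LiesOverPrime q → ∀ σ ∈ A.inertiaSubgroupIn ℚ, ∀ n, X.r n σ = 1 := by
  choose Θ hΘ1 hΘ2 hΘ3 using hΘ
  have hinert : ∀ q : ℕ, q.Prime → P q → ∀ A : ValuationSubring Qb,
      A.LiesOverPrime q → ∀ σ ∈ A.inertiaSubgroupIn ℚ, ∀ n, galTors J p n σ = 1 := by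
    intro q hq hPq A hA σ hσ n
    refine LinearMap.ext fun y => Subtype.ext ?_
    rw [coe_galTors]
    exact hin q hq hPq A hA σ hσ y (tors_torsion y)
  refine ⟨{
    T := fun n => tors J p n
    instACG := fun n => inferInstance
    r := fun n => galTors J p n
    t := fun n ℓ => resEnd p n (h ℓ)
    x := fun n => (thetaTors n (Θ n) (hΘ1 n)).toIntLinearMap.baseChange R v
    kill := fun n y => tors_kill y
    comm := fun n ℓ σ => by
      refine LinearMap.ext fun y => Subtype.ext ?_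
      show h ℓ (σ • (y : J)) = σ • h ℓ (y : J)
      exact hcomm ℓ σ y
    locFin := fun n y => by
      obtain ⟨K, hK, hKy⟩ := hloc (y : J)
      exact ⟨K, hK, fun σ hσ τ => Subtype.ext (hKy σ hσ τ)⟩
    rel := fun n ℓ hℓ hℓS A hA σ hσ => by
      refine LinearMap.ext fun y => Subtype.ext ?_
      have := hrel ℓ hℓ hℓS A hA σ hσ (y : J) (tors_torsion y)
      rw [LinearMap.add_apply, LinearMap.sub_apply, Module.End.mul_apply, Module.End.mul_apply,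
        Module.End.natCast_apply, LinearMap.zero_apply, Submodule.coe_add, Submodule.coe_sub,
        Submodule.coe_zero]
      rw [← natCast_zsmul, Submodule.coe_smul]
      exact this
    inert := fun n q hq hqS A hA σ hσ => hinert q hq (hPS q hq hqS) A hA σ hσ n
    eig := fun n ℓ hℓ hℓS => by
      rw [baseChange_comm (thetaTors n (Θ n) (hΘ1 n)).toIntLinearMap (T ℓ) (resEnd p n (h ℓ))
        (fun c => Subtype.ext (hΘ3 n ℓ hℓ hℓS c)) v, hv ℓ hℓ hℓS, map_smul]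
    ann := fun n c hc => by
      have := Fermat.Agent.S30.TRA.ann_of_primitive (p ^ n) (thetaTors n (Θ n) (hΘ1 n))
        (fun c hc => hΘ2 n c (by
          have := congrArg Subtype.val hc
          exact this)) v hprim c hc
      rw [Nat.cast_pow] at this
      exact this }, ?_⟩
  exact hinert

end Abstract

/-! ### the modular case -/

section Modular

open ModularCurve AlgebraicCurve Fermat.Agent.S31.Lat

variable (N : ℕ) [NeZero N]

/-- the Hecke operators on `J₀(N)`, indexed by the natural numbers -/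
def heckeJ (ℓ : ℕ) : Module.End ℤ (JZero N) :=
  if h : ℓ.Prime then heckeOperatorBar N ⟨ℓ, h⟩ else 0

theorem heckeJ_of_prime {ℓ : ℕ} (hℓ : ℓ.Prime) : heckeJ N ℓ = heckeOperatorBar N ⟨ℓ, hℓ⟩ :=
  dif_pos hℓ

theorem heckeJ_of_not_prime {ℓ : ℕ} (hℓ : ¬ ℓ.Prime) : heckeJ N ℓ = 0 :=
  dif_neg hℓ

/-- the Hecke operators on `Λ`, indexed by the natural numbers -/
def heckeLam (ℓ : ℕ) : Module.End ℤ (Lam N) :=
  if h : ℓ.Prime ∧ ¬ ℓ ∣ N then Tpar h.1 h.2 else 0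

theorem heckeLam_of_prime {ℓ : ℕ} (hℓ : ℓ.Prime) (hℓN : ¬ ℓ ∣ N) :
    heckeLam N ℓ = Tpar hℓ hℓN :=
  dif_pos ⟨hℓ, hℓN⟩

theorem heckeJ_smul (ℓ : ℕ) (σ : Gal) (y : JZero N) :
    heckeJ N ℓ (σ • y) = σ • heckeJ N ℓ y := by
  by_cases hℓ : ℓ.Prime
  · rw [heckeJ_of_prime N hℓ]
    exact Fermat.Agent.S29.E2.heckeOperatorBar_smul N ⟨ℓ, hℓ⟩ σ y
  · rw [heckeJ_of_not_prime N hℓ, LinearMap.zero_apply, LinearMap.zero_apply, smul_zero]

theorem locFin_jZero (y : JZero N) :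
    ∃ K : IntermediateField ℚ Qb, FiniteDimensional ℚ K ∧
      ∀ σ : Gal, (∀ z ∈ K, σ z = z) → ∀ τ : Gal, σ • τ • y = τ • y := by
  classical
  obtain ⟨K, hK, h⟩ := Fermat.Agent.S29.E1.exists_fixing_orbits N {y}
  exact ⟨K, hK, fun σ hσ τ => h σ hσ _ (Finset.mem_singleton_self _) τ⟩

theorem rel_jZero (p : ℕ) {ℓ : ℕ} (hℓ : ℓ.Prime) (hℓN : ¬ ℓ ∣ N) (hℓp : ¬ ℓ ∣ p)
    (A : ValuationSubring Qb) (hA : A.LiesOverPrime ℓ) (σ : Gal) (hσ : A.IsFrobeniusAt σ ℓ)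
    (y : JZero N) (hy : ∃ n : ℕ, p ^ n • y = 0) :
    σ • σ • y - heckeJ N ℓ (σ • y) + (ℓ : ℤ) • y = 0 := by
  have hℓNp : ¬ ℓ ∣ N * p := fun h => (hℓ.dvd_mul.1 h).elim hℓN hℓp
  rw [heckeJ_of_prime N hℓ]
  exact Fermat.Agent.S29.frobenius_relation
    (Fermat.Agent.S37.Z.hasRedPkg N p ℓ hℓ hℓNp A hA) hσ hy

theorem inert_jZero (p : ℕ) {q : ℕ} (hq : q.Prime) (hqN : ¬ q ∣ N) (hqp : ¬ q ∣ p)
    (A : ValuationSubring Qb) (hA : A.LiesOverPrime q) (σ : Gal)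
    (hσ : σ ∈ A.inertiaSubgroupIn ℚ) (y : JZero N) (hy : ∃ n : ℕ, p ^ n • y = 0) :
    σ • y = y := by
  have hqNp : ¬ q ∣ N * p := fun h => (hq.dvd_mul.1 h).elim hqN hqp
  exact Fermat.Agent.S29.inertia_smul_eq
    (Fermat.Agent.S37.Z.hasRedPkg N p q hq hqNp A hA) hσ hy

/-- the torsion classes at all levels -/
theorem exists_theta (p : ℕ) [Fact p.Prime] (S : Finset ℕ)
    (hNS : ∀ q : ℕ, q.Prime → q ∣ N → q ∈ S) (n : ℕ) :
    ∃ Θ : Lam N →+ JZero N, (∀ c, p ^ n • Θ c = 0) ∧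
      (∀ c, Θ c = 0 → ∃ c', c = p ^ n • c') ∧
      ∀ ℓ : ℕ, ℓ.Prime → ℓ ∉ S → ∀ c, Θ (heckeLam N ℓ c) = heckeJ N ℓ (Θ c) := by
  haveI : NeZero (p ^ n) := ⟨pow_ne_zero n (Fact.out : p.Prime).ne_zero⟩
  obtain ⟨Θ, h1, h2, h3⟩ := Fermat.Agent.S29.ThetaJ.exists_theta_Lam N (p ^ n)
  refine ⟨Θ, h1, h2, fun ℓ hℓ hℓS c => ?_⟩
  have hℓN : ¬ ℓ ∣ N := fun h => hℓS (hNS ℓ hℓ h)
  rw [heckeLam_of_prime N hℓ hℓN, heckeJ_of_prime N hℓ]
  exact h3 ℓ hℓ hℓN c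

variable {N}

/-- the eigenvalues, indexed by the natural numbers -/
def eigval {S : Finset ℕ} {𝒪' : Type} [CommRing 𝒪']
    (χ : CuspForm.heckeAlgebra N 2 (↑S : Set ℕ) →+* 𝒪') (ℓ : ℕ) : 𝒪' :=
  open Classical in
  if h : ℓ.Prime ∧ ¬ ℓ ∣ N ∧ ℓ ∉ (↑S : Set ℕ) then
    χ (CuspForm.heckeAlgebra.T h.1 h.2.1 h.2.2)
  else 0

theorem eigval_eq {S : Finset ℕ} {𝒪' : Type} [CommRing 𝒪']
    (χ : CuspForm.heckeAlgebra N 2 (↑S : Set ℕ) →+* 𝒪') {ℓ : ℕ} (hℓ : ℓ.Prime) (hℓN : ¬ ℓ ∣ N)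
    (hℓS : ℓ ∉ (↑S : Set ℕ)) : eigval χ ℓ = χ (CuspForm.heckeAlgebra.T hℓ hℓN hℓS) :=
  dif_pos ⟨hℓ, hℓN, hℓS⟩

variable (N)

/-- **TR-INPUT**: the input of the construction of the trace function, from the modular pieces;
with the triviality of inertia at all primes `q ∤ N p`. -/
theorem exists_input_strong (p : ℕ) [Fact p.Prime] (S : Finset ℕ) (hpS : p ∈ S)
    (hNS : ∀ q : ℕ, q.Prime → q ∣ N → q ∈ S)
    (𝒪' : Type) [CommRing 𝒪'] [IsDomain 𝒪'] [ValuationRing 𝒪'] [CharZero 𝒪']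
    (χ : CuspForm.heckeAlgebra N 2 (↑S : Set ℕ) →+* 𝒪') :
    ∃ a : ℕ → 𝒪',
      (∀ (ℓ : ℕ) (hℓ : ℓ.Prime) (hℓN : ¬ ℓ ∣ N) (hℓS : ℓ ∉ (↑S : Set ℕ)),
        a ℓ = χ (CuspForm.heckeAlgebra.T hℓ hℓN hℓS)) ∧
      ∃ X : Input 𝒪' p S a, ∀ q : ℕ, q.Prime → ¬ q ∣ N → q ≠ p →
        ∀ A : ValuationSubring Qb, A.LiesOverPrime q → ∀ σ ∈ A.inertiaSubgroupIn ℚ,
          ∀ n, X.r n σ = 1 := by
  have hp : p.Prime := Fact.out
  obtain ⟨v, hprim, hv⟩ := exists_eigenclass_O (N := N) χ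
  have hndvd : ∀ q : ℕ, q.Prime → q ≠ p → ¬ q ∣ p := fun q hq hqp h =>
    hqp ((Nat.prime_dvd_prime_iff_eq hq hp).1 h)
  have hnotS : ∀ q : ℕ, q.Prime → q ∉ S → ¬ q ∣ N ∧ q ≠ p := fun q hq hqS =>
    ⟨fun h => hqS (hNS q hq h), fun h => hqS (h ▸ hpS)⟩
  obtain ⟨X, hX⟩ := exists_input_abstract (J := JZero N) (p := p) (R := 𝒪') S (eigval χ)
    (heckeJ N) (heckeJ_smul N) (locFin_jZero N)
    (fun ℓ hℓ hℓS A hA σ hσ y hy =>
      rel_jZero N p hℓ (hnotS ℓ hℓ hℓS).1 (hndvd ℓ hℓ (hnotS ℓ hℓ hℓS).2) A hA σ hσ y hy)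
    (fun q => ¬ q ∣ N ∧ q ≠ p) hnotS
    (fun q hq hP A hA σ hσ y hy => inert_jZero N p hq hP.1 (hndvd q hq hP.2) A hA σ hσ y hy)
    (heckeLam N) (exists_theta N p S hNS) v hprim
    (fun ℓ hℓ hℓS => by
      have hℓN : ¬ ℓ ∣ N := (hnotS ℓ hℓ hℓS).1
      have hℓS' : ℓ ∉ (↑S : Set ℕ) := fun h => hℓS (Finset.mem_coe.1 h)
      rw [heckeLam_of_prime N hℓ hℓN, eigval_eq χ hℓ hℓN hℓS']
      exact hv ℓ hℓ hℓN hℓS')
  exact ⟨eigval χ, fun ℓ hℓ hℓN hℓS => eigval_eq χ hℓ hℓN hℓS, X,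
    fun q hq hqN hqp A hA σ hσ n => hX q hq ⟨hqN, hqp⟩ A hA σ hσ n⟩

/-- **TR-INPUT** -/
theorem exists_input (p : ℕ) [Fact p.Prime] (S : Finset ℕ) (hpS : p ∈ S)
    (hNS : ∀ q : ℕ, q.Prime → q ∣ N → q ∈ S)
    (𝒪' : Type) [CommRing 𝒪'] [IsDomain 𝒪'] [ValuationRing 𝒪'] [CharZero 𝒪']
    (χ : CuspForm.heckeAlgebra N 2 (↑S : Set ℕ) →+* 𝒪') :
    ∃ a : ℕ → 𝒪',
      (∀ (ℓ : ℕ) (hℓ : ℓ.Prime) (hℓN : ¬ ℓ ∣ N) (hℓS : ℓ ∉ (↑S : Set ℕ)),
        a ℓ = χ (CuspForm.heckeAlgebra.T hℓ hℓN hℓS)) ∧ Nonempty (Input 𝒪' p S a) := by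
  obtain ⟨a, ha, X, _⟩ := exists_input_strong N p S hpS hNS 𝒪' χ
  exact ⟨a, ha, ⟨X⟩⟩

end Modular

end Fermat.Agent.S30.TRI
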