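import Mathlib

/-!
# S30 (C80), piece PS, part 1: the algebra of a two dimensional pseudo-character

`T : G → E` with `D : G →* Eˣ`, realised in an `E`-algebra `𝒜` (`γ : G →* 𝒜`, `τ : 𝒜 →ₗ[E] E`,
`τ (γ g) = T g`, `γ g + D g • γ g⁻¹ = T g • 1`), and an element `c₀` with `c₀ ^ 2 = 1`, `D c₀ = -1`.
With `e = (1 + γ c₀) / 2` we prove the Peirce identities `e γ_g e = a g • e`,
`(1 - e) γ_g (1 - e) = d g • (1 - e)` and the resulting scalar identities for
`x g h = a (g h) - a g * a h`.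
-/

set_option autoImplicit false
set_option linter.unusedSectionVars false
set_option linter.unusedVariables false

namespace Fermat.Agent.S30.PS

variable {G E 𝒜 : Type*} [Group G] [Field E] [Ring 𝒜] [Algebra E 𝒜]

/-- a realisation of the pair `(T, D)` in an algebra -/
structure Model (T : G → E) (D : G →* Eˣ) (γ : G →* 𝒜) (τ : 𝒜 → E) : Prop where
  tau_add : ∀ x y, τ (x + y) = τ x + τ y
  tau_smul : ∀ (c : E) x, τ (c • x) = c * τ x
  tr : ∀ g, τ (γ g) = T g
  key : ∀ g, γ g + ((D g : Eˣ) : E) • γ g⁻¹ = T g • (1 : 𝒜)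

/-- the diagonal entries -/
noncomputable def aF (T : G → E) (c₀ : G) (g : G) : E := 2⁻¹ * (T g + T (c₀ * g))

noncomputable def dF (T : G → E) (c₀ : G) (g : G) : E := 2⁻¹ * (T g - T (c₀ * g))

/-- `x g h = b g * c h` -/
noncomputable def xF (T : G → E) (c₀ : G) (g h : G) : E :=
  aF T c₀ (g * h) - aF T c₀ g * aF T c₀ h

noncomputable def yF (T : G → E) (c₀ : G) (g h : G) : E :=
  dF T c₀ (g * h) - dF T c₀ g * dF T c₀ h

theorem aF_add_dF (h2 : (2 : E) ≠ 0) (T : G → E) (c₀ : G) (g : G) :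
    aF T c₀ g + dF T c₀ g = T g := by
  unfold aF dF
  field_simp
  ring

section

variable {T : G → E} {D : G →* Eˣ} {γ : G →* 𝒜} {τ : 𝒜 → E}
variable (M : Model T D γ τ)

include M in
theorem Model.tau_one : τ (1 : 𝒜) = T 1 := by
  rw [← M.tr 1, map_one γ]

include M in
theorem Model.tau_zero : τ (0 : 𝒜) = 0 := by
  have := M.tau_smul 0 0
  rwa [zero_mul, zero_smul] at this

include M in
theorem Model.tau_sub (x y : 𝒜) : τ (x - y) = τ x - τ y := by
  have h := M.tau_add (x - y) y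
  rw [sub_add_cancel] at h
  rw [h, add_sub_cancel_right]

include M in
/-- `D g • γ g⁻¹ = T g - γ g` -/
theorem Model.inv_eq (g : G) : ((D g : Eˣ) : E) • γ g⁻¹ = T g • (1 : 𝒜) - γ g := by
  linear_combination (norm := module) M.key g

include M in
/-- the quadratic relation -/
theorem Model.quad (g : G) :
    γ g * γ g = T g • γ g - ((D g : Eˣ) : E) • (1 : 𝒜) := by
  have h1 : γ g * γ g⁻¹ = 1 := by rw [← map_mul, mul_inv_cancel, map_one]
  have h2 : γ g * (((D g : Eˣ) : E) • γ g⁻¹) = γ g * (T g • (1 : 𝒜) - γ g) := by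
    rw [M.inv_eq g]
  rw [mul_smul_comm, h1, mul_sub, mul_smul_comm, mul_one] at h2
  linear_combination (norm := module) h2

include M in
/-- the anticommutation relation -/
theorem Model.anticomm (g h : G) :
    γ g * γ h + γ h * γ g =
      T g • γ h + T h • γ g + (T (g * h) - T g * T h) • (1 : 𝒜) := by
  have h1 := M.inv_eq (g * h)
  have h2 : ((D (g * h) : Eˣ) : E) • γ (g * h)⁻¹ =
      (((D h : Eˣ) : E) • γ h⁻¹) * (((D g : Eˣ) : E) • γ g⁻¹) := by
    rw [mul_inv_rev, map_mul, map_mul, Units.val_mul, smul_mul_smul_comm, mul_comm]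
  rw [h2, M.inv_eq g, M.inv_eq h, map_mul] at h1
  have h3 : (T h • (1 : 𝒜) - γ h) * (T g • (1 : 𝒜) - γ g) =
      (T g * T h) • (1 : 𝒜) - T h • γ g - T g • γ h + γ h * γ g := by
    simp only [sub_mul, mul_sub, smul_mul_assoc, mul_smul_comm, one_mul, mul_one, smul_smul,
      smul_sub]
    module
  rw [h3] at h1
  linear_combination (norm := module) h1

end

/-! ### the idempotent attached to an involution `c₀` with `D c₀ = -1` -/

section Peirce

variable {T : G → E} {D : G →* Eˣ} {γ : G →* 𝒜} {τ : 𝒜 → E}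
variable (M : Model T D γ τ) (h2 : (2 : E) ≠ 0) {c₀ : G} (hc : c₀ * c₀ = 1)
  (hD : D c₀ = -1)

include M h2 hc hD

theorem Model.T_c₀ (h1 : T 1 = 2) : T c₀ = 0 := by
  have hinv : c₀⁻¹ = c₀ := inv_eq_of_mul_eq_one_left hc
  have h := M.key c₀
  rw [hinv, hD] at h
  have h3 : T c₀ • (1 : 𝒜) = 0 := by
    rw [← h]
    simp
  have h4 := congrArg τ h3
  rw [M.tau_smul, M.tau_zero, M.tau_one, h1] at h4
  rcases mul_eq_zero.1 h4 with h | h
  · exact h
  · exact absurd h h2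

theorem Model.cc : γ c₀ * γ c₀ = 1 := by
  rw [← map_mul, hc, map_one]

/-- `c γ_g + γ_g c = T g • c + T (c₀ g) • 1` -/
theorem Model.anticomm_c (h1 : T 1 = 2) (g : G) :
    γ c₀ * γ g + γ g * γ c₀ = T g • γ c₀ + T (c₀ * g) • (1 : 𝒜) := by
  have h := M.anticomm c₀ g
  rw [M.T_c₀ h2 hc hD h1] at h
  linear_combination (norm := module) h

/-- `c γ_g c = T g • 1 + T (c₀ g) • c - γ_g` -/
theorem Model.conj_c (h1 : T 1 = 2) (g : G) :
    γ c₀ * γ g * γ c₀ = T g • (1 : 𝒜) + T (c₀ * g) • γ c₀ - γ g := by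
  have h := congrArg (fun u => u * γ c₀) (M.anticomm_c h2 hc hD h1 g)
  simp only [add_mul, smul_mul_assoc, one_mul, mul_assoc, M.cc h2 hc hD, mul_one] at h
  rw [mul_assoc]
  linear_combination (norm := module) h

end Peirce

/-- the idempotent `e = (1 + γ c₀) / 2` -/
noncomputable def idem (E : Type*) [Field E] {𝒜 : Type*} [Ring 𝒜] [Algebra E 𝒜]
    (γ : G →* 𝒜) (c₀ : G) : 𝒜 := (2⁻¹ : E) • ((1 : 𝒜) + γ c₀)

section Idem

variable {T : G → E} {D : G →* Eˣ} {γ : G →* 𝒜} {τ : 𝒜 → E}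
variable (M : Model T D γ τ) (h2 : (2 : E) ≠ 0) {c₀ : G} (hc : c₀ * c₀ = 1)
  (hD : D c₀ = -1) (h1 : T 1 = 2)

local notation "e" => idem E γ c₀
local notation "f" => (1 : 𝒜) - idem E γ c₀

include M h2 hc hD h1

theorem Model.e_mul_e : e * e = e := by
  unfold idem
  rw [smul_mul_smul_comm]
  have h : ((1 : 𝒜) + γ c₀) * (1 + γ c₀) = (2 : E) • ((1 : 𝒜) + γ c₀) := by
    simp only [mul_add, add_mul, one_mul, mul_one, M.cc h2 hc hD]
    module
  rw [h, smul_smul]
  congr 1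
  field_simp

theorem Model.e_mul_f : e * f = 0 := by
  rw [mul_sub, mul_one, M.e_mul_e h2 hc hD h1, sub_self]

theorem Model.f_mul_e : f * e = 0 := by
  rw [sub_mul, one_mul, M.e_mul_e h2 hc hD h1, sub_self]

theorem Model.f_mul_f : f * f = f := by
  rw [mul_sub, mul_one, M.f_mul_e h2 hc hD h1, sub_zero]

theorem Model.tau_e : τ e = 1 := by
  unfold idem
  rw [M.tau_smul, M.tau_add, M.tau_one, M.tr, M.T_c₀ h2 hc hD h1, h1, add_zero]
  field_simp

theorem Model.tau_f : τ f = 1 := by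
  rw [M.tau_sub, M.tau_e h2 hc hD h1, M.tau_one, h1]
  norm_num

/-- `e γ_g e = a g • e` -/
theorem Model.eGe (g : G) : e * (γ g * e) = aF T c₀ g • e := by
  unfold idem aF
  have h := M.conj_c h2 hc hD h1 g
  have h' := M.anticomm_c h2 hc hD h1 g
  have h3 : ((1 : 𝒜) + γ c₀) * (γ g * (1 + γ c₀)) =
      (T g + T (c₀ * g)) • ((1 : 𝒜) + γ c₀) := by
    simp only [mul_add, add_mul, one_mul, mul_one, ← mul_assoc]
    rw [h]
    linear_combination (norm := module) h'
  rw [mul_smul_comm, smul_mul_smul_comm, h3, smul_smul, smul_smul]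
  congr 1
  ring

/-- `(1 - e) γ_g (1 - e) = d g • (1 - e)` -/
theorem Model.fGf (g : G) : f * (γ g * f) = dF T c₀ g • f := by
  have hf : f = (2⁻¹ : E) • ((1 : 𝒜) - γ c₀) := by
    unfold idem
    have h22 : (2⁻¹ : E) + 2⁻¹ = 1 := by
      field_simp
      norm_num
    have e1 : (1 : 𝒜) = (2⁻¹ : E) • (1 : 𝒜) + (2⁻¹ : E) • (1 : 𝒜) := by
      rw [← add_smul, h22, one_smul]
    linear_combination (norm := module) e1
  rw [hf]
  unfold dF
  have h := M.conj_c h2 hc hD h1 g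
  have h' := M.anticomm_c h2 hc hD h1 g
  have h3 : ((1 : 𝒜) - γ c₀) * (γ g * (1 - γ c₀)) =
      (T g - T (c₀ * g)) • ((1 : 𝒜) - γ c₀) := by
    simp only [mul_sub, sub_mul, one_mul, mul_one, ← mul_assoc]
    rw [h]
    linear_combination (norm := module) -h'
  rw [mul_smul_comm, smul_mul_smul_comm, h3, smul_smul, smul_smul]
  congr 1
  ring

/-- `e γ_g (1 - e) γ_h e = x g h • e` -/
theorem Model.eGfGe (g h : G) : e * (γ g * (f * (γ h * e))) = xF T c₀ g h • e := by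
  have h3 : e * (γ g * (f * (γ h * e))) =
      e * (γ (g * h) * e) - e * (γ g * (e * (γ h * e))) := by
    rw [map_mul]
    noncomm_ring
  rw [h3, M.eGe h2 hc hD h1 h, mul_smul_comm, mul_smul_comm, M.eGe h2 hc hD h1 g,
    M.eGe h2 hc hD h1 (g * h), smul_smul]
  unfold xF
  module

/-- `(1 - e) γ_g e γ_h (1 - e) = y g h • (1 - e)` -/
theorem Model.fGeGf (g h : G) : f * (γ g * (e * (γ h * f))) = yF T c₀ g h • f := by
  have h3 : f * (γ g * (e * (γ h * f))) =
      f * (γ (g * h) * f) - f * (γ g * (f * (γ h * f))) := by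
    rw [map_mul]
    noncomm_ring
  rw [h3, M.fGf h2 hc hD h1 h, mul_smul_comm, mul_smul_comm, M.fGf h2 hc hD h1 g,
    M.fGf h2 hc hD h1 (g * h), smul_smul]
  unfold yF
  module

/-- `e γ_g (1 - e) γ_h (1 - e) = d h • e γ_g (1 - e)` -/
theorem Model.eGfGf (g h : G) : e * (γ g * (f * (γ h * f))) = dF T c₀ h • (e * (γ g * f)) := by
  rw [M.fGf h2 hc hD h1 h, mul_smul_comm, mul_smul_comm]

/-- `e γ_g e γ_h (1 - e)`: -/
theorem Model.eGeG (g : G) (u : 𝒜) : e * (γ g * (e * u)) = aF T c₀ g • (e * u) := by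
  have h3 : e * (γ g * (e * u)) = (e * (γ g * e)) * u := by noncomm_ring
  rw [h3, M.eGe h2 hc hD h1 g, smul_mul_assoc]

theorem Model.smul_e_inj {s t : E} (h : s • e = t • e) : s = t := by
  have := congrArg τ h
  rwa [M.tau_smul, M.tau_smul, M.tau_e h2 hc hD h1, mul_one, mul_one] at this

theorem Model.smul_f_inj {s t : E} (h : s • f = t • f) : s = t := by
  have := congrArg τ h
  rwa [M.tau_smul, M.tau_smul, M.tau_f h2 hc hD h1, mul_one, mul_one] at this

/-- `y g h = x h g` -/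
theorem Model.yF_eq_xF (hcyc : ∀ g h, T (g * h) = T (h * g)) (g h : G) :
    yF T c₀ g h = xF T c₀ h g := by
  have hA := congrArg (fun u => τ (γ c₀ * u)) (M.anticomm g h)
  simp only [mul_add, mul_smul_comm, mul_one, M.tau_add, M.tau_smul, ← map_mul, M.tr] at hA
  rw [M.T_c₀ h2 hc hD h1, mul_zero, add_zero] at hA
  have h' := hcyc g h
  unfold yF xF aF dF
  rw [h']
  field_simp
  linear_combination (-2) * hA

/-- `x g h * x g' h' = x g h' * x g' h` -/
theorem Model.xF_mul_xF (hcyc : ∀ g h, T (g * h) = T (h * g)) (g h g' h' : G) :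
    xF T c₀ g h * xF T c₀ g' h' = xF T c₀ g h' * xF T c₀ g' h := by
  apply M.smul_e_inj h2 hc hD h1
  have hA := M.eGfGe h2 hc hD h1 g h
  have hB := M.eGfGe h2 hc hD h1 g' h'
  have h3 : (e * (γ g * (f * (γ h * e)))) * (e * (γ g' * (f * (γ h' * e)))) =
      e * (γ g * ((f * (γ h * (e * (γ g' * f)))) * (γ h' * e))) := by
    have hee := M.e_mul_e h2 hc hD h1
    have h4 : (e * (γ g * (f * (γ h * e)))) * (e * (γ g' * (f * (γ h' * e)))) =
        e * (γ g * (f * (γ h * ((e * e) * (γ g' * (f * (γ h' * e))))))) := by noncomm_ring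
    rw [h4, hee]
    noncomm_ring
  rw [hA, hB, smul_mul_smul_comm, M.e_mul_e h2 hc hD h1, M.fGeGf h2 hc hD h1 h g',
    smul_mul_assoc, mul_smul_comm, mul_smul_comm] at h3
  have h5 : f * (γ h' * e) = f * (γ h' * e) := rfl
  rw [M.eGfGe h2 hc hD h1 g h', smul_smul, M.yF_eq_xF h2 hc hD h1 hcyc] at h3
  rw [h3]
  congr 1
  ring

/-- `x (g h) k = a g * x h k + x g k * d h` -/
theorem Model.xF_mul_left (g h k : G) :
    xF T c₀ (g * h) k = aF T c₀ g * xF T c₀ h k + xF T c₀ g k * dF T c₀ h := by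
  apply M.smul_e_inj h2 hc hD h1
  rw [← M.eGfGe h2 hc hD h1 (g * h) k, add_smul, mul_smul, mul_comm (xF T c₀ g k), mul_smul,
    ← M.eGfGe h2 hc hD h1 h k, ← M.eGfGe h2 hc hD h1 g k, ← M.eGeG h2 hc hD h1 g,
    ← mul_smul_comm, ← mul_smul_comm, ← smul_mul_assoc, ← M.fGf h2 hc hD h1 h, map_mul]
  have hef : e + f = 1 := by abel
  have h3 : e * (γ g * γ h * (f * (γ k * e))) =
      e * (γ g * ((e + f) * (γ h * (f * (γ k * e))))) := by
    rw [hef]
    noncomm_ring
  rw [h3]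
  noncomm_ring

/-- `x k (g h) = x k g * a h + d g * x k h` -/
theorem Model.xF_mul_right (k g h : G) :
    xF T c₀ k (g * h) = xF T c₀ k g * aF T c₀ h + dF T c₀ g * xF T c₀ k h := by
  apply M.smul_e_inj h2 hc hD h1
  have hef : e + f = 1 := by abel
  have h3 : e * (γ k * (f * (γ (g * h) * e))) =
      e * (γ k * (f * (γ g * (e * (γ h * e))))) + e * (γ k * ((f * (γ g * f)) * (γ h * e))) := by
    rw [map_mul]
    have h4 : e * (γ k * (f * (γ g * γ h * e))) =
        e * (γ k * (f * (γ g * ((e + f) * (γ h * e))))) := by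
      rw [hef]
      noncomm_ring
    rw [h4]
    noncomm_ring
  rw [← M.eGfGe h2 hc hD h1 k (g * h), h3, M.eGe h2 hc hD h1 h, M.fGf h2 hc hD h1 g]
  simp only [mul_smul_comm, smul_mul_assoc]
  rw [M.eGfGe h2 hc hD h1 k g]
  have h6 : e * (γ k * (f * (γ h * e))) = xF T c₀ k h • e := M.eGfGe h2 hc hD h1 k h
  have h7 : e * (γ k * ((f : 𝒜) * (γ h * e))) = xF T c₀ k h • e := h6
  rw [h7]
  module

omit M h2 hc hD h1 in
theorem idem_quad_aux {u x : 𝒜} (huu : u * u = u) (t s : E) :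
    u * ((t • x - s • (1 : 𝒜)) * u) = t • (u * (x * u)) - s • u := by
  rw [sub_mul, mul_sub, smul_mul_assoc, mul_smul_comm, smul_mul_assoc, one_mul, mul_smul_comm,
    huu]

/-- `a (g g) = T g * a g - D g` -/
theorem Model.aF_sq (g : G) : aF T c₀ (g * g) = T g * aF T c₀ g - ((D g : Eˣ) : E) := by
  apply M.smul_e_inj h2 hc hD h1
  rw [← M.eGe h2 hc hD h1 (g * g), map_mul, M.quad g,
    idem_quad_aux (M.e_mul_e h2 hc hD h1), M.eGe h2 hc hD h1 g, smul_smul, sub_smul]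

/-- `d (g g) = T g * d g - D g` -/
theorem Model.dF_sq (g : G) : dF T c₀ (g * g) = T g * dF T c₀ g - ((D g : Eˣ) : E) := by
  apply M.smul_f_inj h2 hc hD h1
  rw [← M.fGf h2 hc hD h1 (g * g), map_mul, M.quad g,
    idem_quad_aux (M.f_mul_f h2 hc hD h1), M.fGf h2 hc hD h1 g, smul_smul, sub_smul]

end Idem

end Fermat.Agent.S30.PS
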