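import Fermat.Agent.S30.PseudoAlg

/-!
# S30 (C80), piece PS, part 2: a two dimensional pseudo-character with an "odd involution" is the
trace of a representation

`T : G → E`, `D : G →* Eˣ` with `T 1 = 2`, `T (g h) = T (h g)`,
`T (g h) + D h * T (g h⁻¹) = T g * T h`, and `c₀ ∈ G` with `c₀² = 1`, `D c₀ = -1` (`2 ≠ 0` in `E`).
Then there is `ρ : G →* M₂(E)` with `tr ρ = T`, `det ρ = D`, whose matrix entries are fixed
`E`-linear combinations of the functions `g ↦ T (w g)`.
-/

set_option autoImplicit false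
set_option linter.unusedSectionVars false
set_option linter.unusedVariables false

namespace Fermat.Agent.S30.PS

variable {G E : Type*} [Group G] [Field E]

/-- a two dimensional pseudo-character -/
structure IsPseudo (T : G → E) (D : G →* Eˣ) : Prop where
  one : T 1 = 2
  cyc : ∀ g h, T (g * h) = T (h * g)
  rel : ∀ g h, T (g * h) + ((D h : Eˣ) : E) * T (g * h⁻¹) = T g * T h

/-! ### the model: right translations on the span of the translates of `T` -/

/-- right translation `φ ↦ (s ↦ φ (s g))` -/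
def rTrans (E : Type*) [Field E] (g : G) : (G → E) →ₗ[E] (G → E) where
  toFun φ := fun s => φ (s * g)
  map_add' _ _ := rfl
  map_smul' _ _ := rfl

@[simp]
theorem rTrans_apply (g : G) (φ : G → E) (s : G) : rTrans E g φ s = φ (s * g) := rfl

/-- right translations as a representation -/
def rTransHom (G E : Type*) [Group G] [Field E] : G →* Module.End E (G → E) where
  toFun g := rTrans E g
  map_one' := by
    ext φ s
    simp
  map_mul' g h := by
    ext φ s
    simp [mul_assoc]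

/-- the span of the translates of `T` -/
def tSpan (T : G → E) : Submodule E (G → E) :=
  Submodule.span E (Set.range fun g => rTrans E g T)

theorem T_mem_tSpan (T : G → E) : T ∈ tSpan T :=
  Submodule.subset_span ⟨1, by ext s; simp⟩

theorem rTrans_mem_tSpan (T : G → E) (g : G) {φ : G → E} (hφ : φ ∈ tSpan T) :
    rTrans E g φ ∈ tSpan T := by
  induction hφ using Submodule.span_induction with
  | mem x hx =>
    obtain ⟨k, rfl⟩ := hx
    refine Submodule.subset_span ⟨g * k, ?_⟩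
    ext s
    simp [mul_assoc]
  | zero => rw [map_zero]; exact zero_mem _
  | add x y _ _ hx hy => rw [map_add]; exact add_mem hx hy
  | smul c x _ hx => rw [map_smul]; exact Submodule.smul_mem _ _ hx

/-- the representation on `tSpan T` -/
def gam (T : G → E) : G →* Module.End E (tSpan T) where
  toFun g := (rTrans E g).restrict fun _ hφ => rTrans_mem_tSpan T g hφ
  map_one' := by
    ext φ s
    simp
  map_mul' g h := by
    ext φ s
    simp [mul_assoc]

@[simp]
theorem gam_apply (T : G → E) (g : G) (φ : tSpan T) (s : G) :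
    ((gam T g φ : tSpan T) : G → E) s = (φ : G → E) (s * g) := rfl

/-- the trace functional on the model -/
def tauM (T : G → E) (b : Module.End E (tSpan T)) : E :=
  ((b ⟨T, T_mem_tSpan T⟩ : tSpan T) : G → E) 1

theorem key_of_mem {T : G → E} {D : G →* Eˣ} (hP : IsPseudo T D) (g : G) {φ : G → E}
    (hφ : φ ∈ tSpan T) (s : G) :
    φ (s * g) + ((D g : Eˣ) : E) * φ (s * g⁻¹) = T g * φ s := by
  induction hφ using Submodule.span_induction with
  | mem x hx =>
    obtain ⟨k, rfl⟩ := hx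
    show T (s * g * k) + ((D g : Eˣ) : E) * T (s * g⁻¹ * k) = T g * T (s * k)
    have h := hP.rel (k * s) g
    rw [hP.cyc (s * g) k, hP.cyc (s * g⁻¹) k, hP.cyc s k, ← mul_assoc, ← mul_assoc, h, mul_comm]
  | zero => simp
  | add x y _ _ hx hy =>
    simp only [Pi.add_apply]
    linear_combination hx + hy
  | smul c x _ hx =>
    simp only [Pi.smul_apply, smul_eq_mul]
    linear_combination c * hx

theorem model {T : G → E} {D : G →* Eˣ} (hP : IsPseudo T D) :
    Model T D (gam T) (tauM T) where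
  tau_add _ _ := rfl
  tau_smul _ _ := rfl
  tr g := by
    show T (1 * g) = T g
    rw [one_mul]
  key g := by
    ext φ s
    have := key_of_mem hP g φ.2 s
    simpa using this

/-! ### scalar identities -/

section Scalar

variable {T : G → E} {D : G →* Eˣ} (hP : IsPseudo T D) (h2 : (2 : E) ≠ 0) {c₀ : G}
  (hc : c₀ * c₀ = 1) (hD : D c₀ = -1)

include hP h2 hc hD

theorem T_c₀ : T c₀ = 0 := (model hP).T_c₀ h2 hc hD hP.one

theorem aF_one : aF T c₀ 1 = 1 := by
  unfold aF
  rw [mul_one, hP.one, T_c₀ hP h2 hc hD, add_zero]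
  field_simp

theorem dF_one : dF T c₀ 1 = 1 := by
  unfold dF
  rw [mul_one, hP.one, T_c₀ hP h2 hc hD, sub_zero]
  field_simp

theorem xF_one_left (g : G) : xF T c₀ 1 g = 0 := by
  unfold xF
  rw [one_mul, aF_one hP h2 hc hD, one_mul, sub_self]

theorem xF_one_right (g : G) : xF T c₀ g 1 = 0 := by
  unfold xF
  rw [mul_one, aF_one hP h2 hc hD, mul_one, sub_self]

omit hP h2 hc hD in
theorem aF_mul (g h : G) : aF T c₀ (g * h) = aF T c₀ g * aF T c₀ h + xF T c₀ g h := by
  unfold xF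
  ring

theorem dF_mul (g h : G) : dF T c₀ (g * h) = dF T c₀ g * dF T c₀ h + xF T c₀ h g := by
  rw [← (model hP).yF_eq_xF h2 hc hD hP.one hP.cyc g h]
  unfold yF
  ring

theorem xF_xF (g h g' h' : G) :
    xF T c₀ g h * xF T c₀ g' h' = xF T c₀ g h' * xF T c₀ g' h :=
  (model hP).xF_mul_xF h2 hc hD hP.one hP.cyc g h g' h'

theorem xF_left (g h k : G) :
    xF T c₀ (g * h) k = aF T c₀ g * xF T c₀ h k + xF T c₀ g k * dF T c₀ h :=
  (model hP).xF_mul_left h2 hc hD hP.one g h k

theorem xF_right (k g h : G) :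
    xF T c₀ k (g * h) = xF T c₀ k g * aF T c₀ h + dF T c₀ g * xF T c₀ k h :=
  (model hP).xF_mul_right h2 hc hD hP.one k g h

theorem aF_sq (g : G) : aF T c₀ (g * g) = T g * aF T c₀ g - ((D g : Eˣ) : E) :=
  (model hP).aF_sq h2 hc hD hP.one g

/-- `a g * d g - x g g = D g` -/
theorem det_formula (g : G) :
    aF T c₀ g * dF T c₀ g - xF T c₀ g g = ((D g : Eˣ) : E) := by
  have h1 := aF_sq hP h2 hc hD g
  have h3 := aF_add_dF h2 T c₀ g
  unfold xF
  rw [h1, ← h3]
  ring

end Scalar

/-! ### the representation -/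

section Rep

variable {T : G → E} {D : G →* Eˣ} (hP : IsPseudo T D) (h2 : (2 : E) ≠ 0) {c₀ : G}
  (hc : c₀ * c₀ = 1) (hD : D c₀ = -1)

/-- the irreducible case -/
noncomputable def repIrr (hP : IsPseudo T D) (h2 : (2 : E) ≠ 0) (hc : c₀ * c₀ = 1)
    (hD : D c₀ = -1) (g₁ h₁ : G) (hs : xF T c₀ h₁ g₁ ≠ 0) :
    G →* Matrix (Fin 2) (Fin 2) E where
  toFun g := !![aF T c₀ g, xF T c₀ g g₁; xF T c₀ h₁ g / xF T c₀ h₁ g₁, dF T c₀ g]
  map_one' := by
    rw [aF_one hP h2 hc hD, dF_one hP h2 hc hD, xF_one_left hP h2 hc hD,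
      xF_one_right hP h2 hc hD, zero_div]
    exact Matrix.one_fin_two.symm
  map_mul' g h := by
    rw [Matrix.mul_fin_two]
    have e1 := xF_xF hP h2 hc hD g h h₁ g₁
    have e2 := xF_xF hP h2 hc hD h g h₁ g₁
    have h11 : aF T c₀ (g * h) =
        aF T c₀ g * aF T c₀ h + xF T c₀ g g₁ * (xF T c₀ h₁ h / xF T c₀ h₁ g₁) := by
      rw [aF_mul g h]
      field_simp
      linear_combination e1
    have h12 : xF T c₀ (g * h) g₁ =
        aF T c₀ g * xF T c₀ h g₁ + xF T c₀ g g₁ * dF T c₀ h := xF_left hP h2 hc hD g h g₁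
    have h21 : xF T c₀ h₁ (g * h) / xF T c₀ h₁ g₁ =
        xF T c₀ h₁ g / xF T c₀ h₁ g₁ * aF T c₀ h + dF T c₀ g * (xF T c₀ h₁ h / xF T c₀ h₁ g₁) := by
      rw [xF_right hP h2 hc hD h₁ g h]
      field_simp
    have h22 : dF T c₀ (g * h) =
        xF T c₀ h₁ g / xF T c₀ h₁ g₁ * xF T c₀ h g₁ + dF T c₀ g * dF T c₀ h := by
      rw [dF_mul hP h2 hc hD g h]
      field_simp
      linear_combination e2
    rw [h11, h12, h21, h22]

/-- the reducible case -/
noncomputable def repRed (hP : IsPseudo T D) (h2 : (2 : E) ≠ 0) (hc : c₀ * c₀ = 1)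
    (hD : D c₀ = -1) (hx : ∀ g h, xF T c₀ g h = 0) :
    G →* Matrix (Fin 2) (Fin 2) E where
  toFun g := !![aF T c₀ g, 0; 0, dF T c₀ g]
  map_one' := by
    rw [aF_one hP h2 hc hD, dF_one hP h2 hc hD]
    exact Matrix.one_fin_two.symm
  map_mul' g h := by
    rw [Matrix.mul_fin_two, aF_mul g h, dF_mul hP h2 hc hD g h, hx, hx]
    simp

include hP h2 hc hD in
/-- **Pseudo-character ⇒ representation.** -/
theorem exists_rep_of_pseudo :
    ∃ (ρ : G →* Matrix (Fin 2) (Fin 2) E) (n : ℕ) (w : Fin n → G)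
      (coef : Fin 2 → Fin 2 → Fin n → E),
      (∀ g, (ρ g).trace = T g) ∧ (∀ g, (ρ g).det = ((D g : Eˣ) : E)) ∧
        ∀ g i j, ρ g i j = ∑ k, coef i j k * T (w k * g) := by
  classical
  by_cases hx : ∀ g h, xF T c₀ g h = 0
  · refine ⟨repRed hP h2 hc hD hx, 2, ![1, c₀],
      !![![2⁻¹, 2⁻¹], ![0, 0]; ![0, 0], ![2⁻¹, -2⁻¹]], ?_, ?_, ?_⟩
    · intro g
      show Matrix.trace !![aF T c₀ g, 0; 0, dF T c₀ g] = T g
      rw [Matrix.trace_fin_two_of]
      exact aF_add_dF h2 T c₀ g
    · intro g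
      show Matrix.det !![aF T c₀ g, 0; 0, dF T c₀ g] = _
      rw [Matrix.det_fin_two_of, ← det_formula hP h2 hc hD g, hx]
      ring
    · intro g i j
      show (!![aF T c₀ g, 0; 0, dF T c₀ g] : Matrix (Fin 2) (Fin 2) E) i j = _
      rw [Fin.sum_univ_two]
      fin_cases i <;> fin_cases j
      · simp only [Fin.zero_eta, Matrix.of_apply, Matrix.cons_val_zero, Matrix.cons_val_one,
          one_mul]
        unfold aF
        ring
      · simp
      · simp
      · simp only [Fin.mk_one, Matrix.of_apply, Matrix.cons_val_zero, Matrix.cons_val_one,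
          one_mul]
        unfold dF
        ring
  · rw [not_forall] at hx
    obtain ⟨h₁, hx⟩ := hx
    rw [not_forall] at hx
    obtain ⟨g₁, hs⟩ := hx
    refine ⟨repIrr hP h2 hc hD g₁ h₁ hs, 6, ![1, c₀, g₁, g₁ * c₀, h₁, c₀ * h₁],
      !![![2⁻¹, 2⁻¹, 0, 0, 0, 0],
          ![-(2⁻¹ * aF T c₀ g₁), -(2⁻¹ * aF T c₀ g₁), 2⁻¹, 2⁻¹, 0, 0];
        ![-(2⁻¹ * aF T c₀ h₁) / xF T c₀ h₁ g₁, -(2⁻¹ * aF T c₀ h₁) / xF T c₀ h₁ g₁, 0, 0,
            2⁻¹ / xF T c₀ h₁ g₁, 2⁻¹ / xF T c₀ h₁ g₁],
          ![2⁻¹, -2⁻¹, 0, 0, 0, 0]], ?_, ?_, ?_⟩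
    · intro g
      show Matrix.trace !![aF T c₀ g, xF T c₀ g g₁; xF T c₀ h₁ g / xF T c₀ h₁ g₁, dF T c₀ g]
        = T g
      rw [Matrix.trace_fin_two_of]
      exact aF_add_dF h2 T c₀ g
    · intro g
      show Matrix.det !![aF T c₀ g, xF T c₀ g g₁; xF T c₀ h₁ g / xF T c₀ h₁ g₁, dF T c₀ g] = _
      rw [Matrix.det_fin_two_of, ← det_formula hP h2 hc hD g]
      have e1 := xF_xF hP h2 hc hD g g h₁ g₁
      field_simp
      linear_combination e1
    · intro g i j
      show (!![aF T c₀ g, xF T c₀ g g₁; xF T c₀ h₁ g / xF T c₀ h₁ g₁, dF T c₀ g] :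
        Matrix (Fin 2) (Fin 2) E) i j = _
      have c1 : T (g * g₁) = T (g₁ * g) := hP.cyc g g₁
      have c2 : T (c₀ * (g * g₁)) = T (g₁ * c₀ * g) := by
        rw [← mul_assoc, hP.cyc (c₀ * g) g₁, mul_assoc]
      have c3 : T (c₀ * (h₁ * g)) = T (c₀ * h₁ * g) := by rw [mul_assoc]
      rw [Fin.sum_univ_six]
      fin_cases i <;> fin_cases j
      · simp only [Fin.zero_eta, Matrix.of_apply, Matrix.cons_val_zero, Matrix.cons_val_one,
          Matrix.cons_val, one_mul]
        unfold aF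
        ring
      · simp only [Fin.zero_eta, Fin.mk_one, Matrix.of_apply, Matrix.cons_val_zero,
          Matrix.cons_val_one, Matrix.cons_val, one_mul]
        unfold xF
        unfold aF
        rw [c1, c2]
        ring
      · simp only [Fin.zero_eta, Fin.mk_one, Matrix.of_apply, Matrix.cons_val_zero,
          Matrix.cons_val_one, Matrix.cons_val, one_mul]
        unfold xF
        rw [show aF T c₀ (h₁ * g) = 2⁻¹ * (T (h₁ * g) + T (c₀ * h₁ * g)) by
          unfold aF; rw [c3]]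
        rw [show aF T c₀ g = 2⁻¹ * (T g + T (c₀ * g)) from rfl]
        field_simp
        ring
      · simp only [Fin.mk_one, Matrix.of_apply, Matrix.cons_val_zero, Matrix.cons_val_one,
          Matrix.cons_val, one_mul]
        unfold dF
        ring

end Rep

end Fermat.Agent.S30.PS
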