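import Mathlib

/-!
# S30 (C80), piece TR, abstract part: a trace function from quadratic relations

A *level* is a module `M` over `R` with a linear action of a group `G` and an element `x` whose
annihilator is contained in an ideal `I` which kills `M`. An element `t : R` is a *valid trace* of
`g` at this level if `g² - t g + D(g) = 0` on the span `W` of the orbit of `x`. Valid traces are
unique modulo `I` and satisfy the identities of a two dimensional pseudo-character modulo `I`.
For a system of levels with ideals `I n` cofinal with the powers of an ideal `J`, `R` being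
`J`-adically complete, the valid traces glue to a function `Tr : G → R` satisfying the identities
exactly.
-/

set_option autoImplicit false
set_option linter.unusedSectionVars false
set_option linter.style.haveILetI false

namespace Fermat.Agent.S30.TR

variable {G : Type} [Group G] {R : Type} [CommRing R]

/-- one level -/
structure Level (G : Type) [Group G] (R : Type) [CommRing R] (I : Ideal R) where
  /-- the module -/
  M : Type
  [instACG : AddCommGroup M]
  [instMod : Module R M]
  /-- the action -/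
  act : G →* Module.End R M
  /-- the base point -/
  x : M
  ann : ∀ a : R, a • x = 0 → a ∈ I
  kill : ∀ a ∈ I, ∀ w : M, a • w = 0

attribute [instance] Level.instACG Level.instMod

namespace Level

variable {I : Ideal R} (L : Level G R I) (D : G →* Rˣ)

/-- the span of the orbit of the base point -/
def W : Submodule R L.M := Submodule.span R (Set.range fun g : G => L.act g L.x)

theorem x_mem : L.x ∈ L.W :=
  Submodule.subset_span ⟨1, by
    show L.act 1 L.x = L.x
    rw [map_one]
    rfl⟩

theorem act_mem (g : G) {w : L.M} (hw : w ∈ L.W) : L.act g w ∈ L.W := by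
  have h : L.W ≤ L.W.comap (L.act g) := by
    refine Submodule.span_le.2 ?_
    rintro _ ⟨h, rfl⟩
    exact Submodule.subset_span ⟨g * h, by
      show L.act (g * h) L.x = _
      rw [map_mul]
      rfl⟩
  exact h hw

theorem act_inv_act (g : G) (w : L.M) : L.act g⁻¹ (L.act g w) = w := by
  rw [← Module.End.mul_apply, ← map_mul, inv_mul_cancel, map_one]
  rfl

theorem act_act_inv (g : G) (w : L.M) : L.act g (L.act g⁻¹ w) = w := by
  rw [← Module.End.mul_apply, ← map_mul, mul_inv_cancel, map_one]
  rfl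

/-- `t` is a valid trace of `g` -/
def Valid (g : G) (t : R) : Prop :=
  ∀ w ∈ L.W, L.act g (L.act g w) - t • L.act g w + ((D g : Rˣ) : R) • w = 0

variable {L D}

/-- the operator identity `g + D(g) g⁻¹ = t` on `W` -/
theorem Valid.add_inv {g : G} {t : R} (h : L.Valid D g t) {w : L.M} (hw : w ∈ L.W) :
    L.act g w + ((D g : Rˣ) : R) • L.act g⁻¹ w = t • w := by
  have h1 := h _ (L.act_mem g⁻¹ hw)
  rw [L.act_act_inv] at h1
  rw [← sub_eq_zero, ← h1]
  abel

theorem Valid.unique {g : G} {t t' : R} (h : L.Valid D g t) (h' : L.Valid D g t') :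
    t - t' ∈ I := by
  apply L.ann
  have h1 := h.add_inv L.x_mem
  have h2 := h'.add_inv L.x_mem
  rw [sub_smul, ← h1, ← h2, sub_self]

theorem Valid.congr {g : G} {t t' : R} (h : L.Valid D g t) (ht : t' - t ∈ I) :
    L.Valid D g t' := by
  intro w hw
  have h1 := h w hw
  have h2 : (t' - t) • L.act g w = 0 := L.kill _ ht _
  rw [sub_smul, sub_eq_zero] at h2
  rw [h2]
  exact h1

theorem valid_one : L.Valid D 1 2 := by
  intro w _
  rw [map_one, map_one, Units.val_one, one_smul]
  simp only [Module.End.one_apply]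
  rw [two_smul]
  abel

theorem Valid.conj {g h : G} {t : R} (hv : L.Valid D (g * h) t) : L.Valid D (h * g) t := by
  intro w hw
  have h1 := hv _ (L.act_mem h⁻¹ hw)
  have h2 := congrArg (L.act h) h1
  have e1 : L.act h (L.act (g * h) (L.act (g * h) (L.act h⁻¹ w)))
      = L.act (h * g) (L.act (h * g) w) := by
    simp only [← Module.End.mul_apply, ← map_mul]
    congr 2
    group
  have e2 : L.act h (L.act (g * h) (L.act h⁻¹ w)) = L.act (h * g) w := by
    simp only [← Module.End.mul_apply, ← map_mul]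
    congr 2
    group
  have e3 : D (g * h) = D (h * g) := by rw [map_mul, map_mul, mul_comm]
  rw [map_add, map_sub, map_smul, map_smul, e1, e2, L.act_act_inv, map_zero, e3] at h2
  exact h2

/-- the pseudo-character identity modulo `I` -/
theorem Valid.mul {g h : G} {tg th tgh tgh' : R} (hg : L.Valid D g tg) (hh : L.Valid D h th)
    (hgh : L.Valid D (g * h) tgh) (hgh' : L.Valid D (g * h⁻¹) tgh') :
    tgh + ((D h : Rˣ) : R) * tgh' - tg * th ∈ I := by
  apply L.ann
  have a1 := hgh.add_inv L.x_mem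
  have a2 := hgh'.add_inv L.x_mem
  have a3 := hg.add_inv L.x_mem
  have a4 := hh.add_inv (L.act_mem g⁻¹ L.x_mem)
  have a5 := congrArg (L.act g) (hh.add_inv L.x_mem)
  rw [map_add, map_smul, map_smul] at a5
  -- rewrite everything in terms of the four elements
  have e1 : L.act (g * h)⁻¹ L.x = L.act h⁻¹ (L.act g⁻¹ L.x) := by
    rw [mul_inv_rev, map_mul]
    rfl
  have e2 : L.act (g * h⁻¹)⁻¹ L.x = L.act h (L.act g⁻¹ L.x) := by
    rw [mul_inv_rev, inv_inv, map_mul]
    rfl
  have e3 : L.act (g * h) L.x = L.act g (L.act h L.x) := by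
    rw [map_mul]
    rfl
  have e4 : L.act (g * h⁻¹) L.x = L.act g (L.act h⁻¹ L.x) := by
    rw [map_mul]
    rfl
  have e5 : ((D (g * h) : Rˣ) : R) = ((D g : Rˣ) : R) * ((D h : Rˣ) : R) := by
    rw [map_mul, Units.val_mul]
  have e6 : ((D h : Rˣ) : R) * ((D (g * h⁻¹) : Rˣ) : R) = ((D g : Rˣ) : R) := by
    rw [map_mul, map_inv, Units.val_mul, mul_comm ((D g : Rˣ) : R), ← mul_assoc,
      Units.mul_inv, one_mul]
  rw [e1, e3, e5] at a1
  rw [e2, e4] at a2
  have key : (tgh + ((D h : Rˣ) : R) * tgh') • L.x = (tg * th) • L.x := by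
    calc (tgh + ((D h : Rˣ) : R) * tgh') • L.x
        = tgh • L.x + ((D h : Rˣ) : R) • (tgh' • L.x) := by rw [add_smul, mul_smul]
      _ = (L.act g (L.act h L.x)
            + (((D g : Rˣ) : R) * ((D h : Rˣ) : R)) • L.act h⁻¹ (L.act g⁻¹ L.x))
          + ((D h : Rˣ) : R) • (L.act g (L.act h⁻¹ L.x)
            + ((D (g * h⁻¹) : Rˣ) : R) • L.act h (L.act g⁻¹ L.x)) := by rw [a1, a2]
      _ = (L.act g (L.act h L.x) + ((D h : Rˣ) : R) • L.act g (L.act h⁻¹ L.x))
          + ((D g : Rˣ) : R) • (L.act h (L.act g⁻¹ L.x)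
            + ((D h : Rˣ) : R) • L.act h⁻¹ (L.act g⁻¹ L.x)) := by
        rw [smul_add, smul_smul, e6, smul_add, smul_smul]
        abel
      _ = th • L.act g L.x + ((D g : Rˣ) : R) • (th • L.act g⁻¹ L.x) := by rw [a5, a4]
      _ = th • (tg • L.x) := by rw [← a3, smul_add, smul_comm th ((D g : Rˣ) : R)]
      _ = (tg * th) • L.x := by rw [smul_smul, mul_comm]
  rw [sub_smul, key, sub_self]

theorem Valid.mul_of_trivial {g h : G} {t : R} (hv : L.Valid D g t)
    (hh : ∀ w ∈ L.W, L.act h w = w) (hD : ((D h : Rˣ) : R) - 1 ∈ I) : L.Valid D (g * h) t := by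
  intro w hw
  have h1 := hv w hw
  have h2 : (((D h : Rˣ) : R) - 1) • (((D g : Rˣ) : R) • w) = 0 := L.kill _ hD _
  rw [sub_smul, one_smul, sub_eq_zero, smul_smul] at h2
  have e1 : L.act (g * h) w = L.act g w := by
    rw [map_mul, Module.End.mul_apply, hh w hw]
  have e2 : L.act (g * h) (L.act g w) = L.act g (L.act g w) := by
    rw [map_mul, Module.End.mul_apply, hh _ (L.act_mem g hw)]
  rw [e1, e2, map_mul, Units.val_mul, mul_comm, h2]
  exact h1

end Level

/-- a system of levels: at every level, every element has a trace which is valid at all lower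
levels -/
structure LevelSys (G : Type) [Group G] (R : Type) [CommRing R] (D : G →* Rˣ)
    (I : ℕ → Ideal R) where
  /-- the levels -/
  L : ∀ n, Level G R (I n)
  ex : ∀ n g, ∃ t : R, ∀ m ≤ n, (L m).Valid D g t

namespace LevelSys

variable {D : G →* Rˣ} {I : ℕ → Ideal R} (Sy : LevelSys G R D I)

/-- **Existence of the trace function.** -/
theorem exists_trace (J : Ideal R) [IsPrecomplete J R] (hIJ : ∀ n, I n ≤ J ^ n)
    (hJI : ∀ n, ∃ N, J ^ N ≤ I n) :
    ∃ Tr : G → R, ∀ n g, (Sy.L n).Valid D g (Tr g) := by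
  have key : ∀ g : G, ∃ T : R, ∀ n, (Sy.L n).Valid D g T := by
    intro g
    choose t ht using fun n => Sy.ex n g
    have hc : ∀ {m n : ℕ}, m ≤ n → t m ≡ t n [SMOD (J ^ m • ⊤ : Submodule R R)] := by
      intro m n hmn
      rw [SModEq.sub_mem, smul_eq_mul, Ideal.mul_top]
      exact hIJ m ((ht m m le_rfl).unique (ht n m hmn))
    obtain ⟨T, hT⟩ := IsPrecomplete.prec inferInstance hc
    refine ⟨T, fun m => ?_⟩
    obtain ⟨N, hN⟩ := hJI m
    have h1 : (Sy.L m).Valid D g (t (max N m)) := ht _ m (le_max_right N m)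
    refine h1.congr ?_
    have h2 := hT (max N m)
    rw [SModEq.sub_mem, smul_eq_mul, Ideal.mul_top] at h2
    have h3 : T - t (max N m) ∈ J ^ (max N m) := by
      rw [← neg_sub]
      exact neg_mem h2
    exact hN (Ideal.pow_le_pow_right (le_max_left N m) h3)
  choose Tr hTr using key
  exact ⟨Tr, fun n g => hTr g n⟩

variable {Sy} {Tr : G → R} (hTr : ∀ n g, (Sy.L n).Valid D g (Tr g))
  (hI0 : ∀ a : R, (∀ n, a ∈ I n) → a = 0)

include hTr in
theorem tr_sub_mem {n : ℕ} {g : G} {t : R} (h : (Sy.L n).Valid D g t) : Tr g - t ∈ I n :=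
  (hTr n g).unique h

include hTr hI0 in
theorem tr_eq_of_valid {g : G} {t : R} (h : ∀ n, (Sy.L n).Valid D g t) : Tr g = t :=
  sub_eq_zero.1 (hI0 _ fun n => tr_sub_mem hTr (h n))

include hTr hI0 in
theorem tr_one : Tr 1 = 2 :=
  tr_eq_of_valid hTr hI0 fun _ => Level.valid_one

include hTr hI0 in
theorem tr_comm (g h : G) : Tr (g * h) = Tr (h * g) :=
  (tr_eq_of_valid hTr hI0 fun n => (hTr n (g * h)).conj).symm

include hTr hI0 in
theorem tr_mul (g h : G) :
    Tr (g * h) + ((D h : Rˣ) : R) * Tr (g * h⁻¹) = Tr g * Tr h :=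
  sub_eq_zero.1 (hI0 _ fun n => (hTr n g).mul (hTr n h) (hTr n (g * h)) (hTr n (g * h⁻¹)))

include hTr in
theorem tr_mul_sub_mem {n : ℕ} (g : G) {h : G} (hh : ∀ w ∈ (Sy.L n).W, (Sy.L n).act h w = w)
    (hD : ((D h : Rˣ) : R) - 1 ∈ I n) : Tr (g * h) - Tr g ∈ I n :=
  tr_sub_mem hTr ((hTr n g).mul_of_trivial hh hD)

include hTr hI0 in
theorem tr_mul_of_trivial (g : G) {h : G}
    (hh : ∀ n, ∀ w ∈ (Sy.L n).W, (Sy.L n).act h w = w) (hD : D h = 1) :
    Tr (g * h) = Tr g :=
  sub_eq_zero.1 (hI0 _ fun n => tr_mul_sub_mem hTr g (hh n) (by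
    rw [hD, Units.val_one, sub_self]
    exact zero_mem _))

end LevelSys

end Fermat.Agent.S30.TR
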